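import Fermat.Agent.Corollaries.Vdw.Defs

/-!
# The sieve

If for every prime `p ≥ p₀` at least `c pⁿ` of the vectors modulo `p` are in `T_p` then almost all
integral vectors are in `T_p` for some `p ≥ p₀`.
-/

set_option autoImplicit false

namespace Fermat.Agent.Cor.Vdw.Box

open Filter Topology Fermat.Agent.Cor.Vdw

variable {n : ℕ}

/-- the residue classes modulo `m` in an interval -/
theorem card_interval_le {m : ℕ} (hm : 0 < m) (H : ℕ) (r : ZMod m) :
    (((Finset.Icc (-(H : ℤ)) H).filter fun x : ℤ => (x : ZMod m) = r).card : ℝ) ≤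
      (2 * H + 1) / m + 1 := by
  obtain ⟨v, rfl⟩ := ZMod.intCast_surjective r
  have h1 : (Finset.Icc (-(H : ℤ)) H).filter (fun x : ℤ => (x : ZMod m) = (v : ZMod m)) =
      (Finset.Ioc (-(H : ℤ) - 1) H).filter fun x => x ≡ v [ZMOD m] := by
    ext x
    rw [Finset.mem_filter, Finset.mem_filter, Finset.mem_Icc, Finset.mem_Ioc,
      ZMod.intCast_eq_intCast_iff]
    constructor
    · rintro ⟨⟨h1, h2⟩, h3⟩
      exact ⟨⟨by omega, h2⟩, h3⟩
    · rintro ⟨⟨h1, h2⟩, h3⟩
      exact ⟨⟨by omega, h2⟩, h3⟩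
  have hm' : (0 : ℤ) < m := by exact_mod_cast hm
  have h2 := Int.Ioc_filter_modEq_card (-(H : ℤ) - 1) H hm' v
  rw [h1]
  have h3 : ((((Finset.Ioc (-(H : ℤ) - 1) H).filter fun x => x ≡ v [ZMOD m]).card : ℤ) : ℝ) ≤
      (2 * H + 1) / m + 1 := by
    rw [h2]
    have hmq : (0 : ℚ) < m := by exact_mod_cast hm
    have h4 : ((max (⌊(((H : ℤ) : ℚ) - v) / ((m : ℤ) : ℚ)⌋ -
        ⌊(((-(H : ℤ) - 1 : ℤ) : ℚ) - v) / ((m : ℤ) : ℚ)⌋) 0 : ℤ) : ℚ) ≤ (2 * H + 1) / m + 1 := by
      rw [Int.cast_max, Int.cast_zero]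
      refine max_le ?_ (by positivity)
      rw [Int.cast_sub]
      have h5 := Int.floor_le ((((H : ℤ) : ℚ) - v) / ((m : ℤ) : ℚ))
      have h6 := Int.lt_floor_add_one ((((-(H : ℤ) - 1 : ℤ) : ℚ) - v) / ((m : ℤ) : ℚ))
      have h7 : (((H : ℤ) : ℚ) - v) / ((m : ℤ) : ℚ) -
          (((-(H : ℤ) - 1 : ℤ) : ℚ) - v) / ((m : ℤ) : ℚ) = (2 * H + 1) / m := by
        push_cast
        ring
      linarith
    have h5 := (Rat.cast_le (K := ℝ)).mpr h4
    rw [Rat.cast_intCast] at h5
    refine h5.trans (le_of_eq ?_)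
    push_cast
    rfl
  exact_mod_cast h3

open Classical in
theorem card_box_le {m : ℕ} (hm : 0 < m) (H : ℕ) (R : Set (Fin n → ZMod m)) :
    (((box n H).filter fun a => red m a ∈ R).card : ℝ) ≤
      Nat.card R * ((2 * H + 1) / m + 1) ^ n := by
  have : NeZero m := ⟨hm.ne'⟩
  have hfib : ∀ r : Fin n → ZMod m,
      (((box n H).filter fun a => red m a = r).card : ℝ) ≤ ((2 * H + 1) / m + 1) ^ n := by
    intro r
    have h1 : (box n H).filter (fun a => red m a = r) = Fintype.piFinset fun i =>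
        (Finset.Icc (-(H : ℤ)) H).filter fun x : ℤ => (x : ZMod m) = r i := by
      ext a
      rw [Finset.mem_filter, box, Fintype.mem_piFinset, Fintype.mem_piFinset]
      constructor
      · rintro ⟨h1, h2⟩ i
        exact Finset.mem_filter.mpr ⟨h1 i, congrFun h2 i⟩
      · intro h
        exact ⟨fun i => (Finset.mem_filter.mp (h i)).1, funext fun i =>
          (Finset.mem_filter.mp (h i)).2⟩
    rw [h1, Fintype.card_piFinset, Nat.cast_prod]
    calc ∏ i, (((Finset.Icc (-(H : ℤ)) H).filter fun x : ℤ => (x : ZMod m) = r i).card : ℝ)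
        ≤ ∏ _i : Fin n, ((2 * H + 1) / m + 1 : ℝ) :=
          Finset.prod_le_prod (fun i _ => Nat.cast_nonneg _) fun i _ => card_interval_le hm H (r i)
      _ = ((2 * H + 1) / m + 1) ^ n := by
          rw [Finset.prod_const, Finset.card_univ, Fintype.card_fin]
  have h2 := Finset.card_eq_sum_card_fiberwise (f := red m)
    (s := (box n H).filter fun a => red m a ∈ R) (t := R.toFinset)
    (fun a ha => by
      rw [Finset.mem_coe, Set.mem_toFinset]
      exact (Finset.mem_filter.mp ha).2)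
  rw [h2, Nat.cast_sum]
  calc ∑ r ∈ R.toFinset, ((((box n H).filter fun a => red m a ∈ R).filter
        fun a => red m a = r).card : ℝ)
      ≤ ∑ _r ∈ R.toFinset, ((2 * H + 1) / m + 1 : ℝ) ^ n := by
        refine Finset.sum_le_sum fun r _ => le_trans ?_ (hfib r)
        exact_mod_cast Finset.card_le_card (Finset.filter_subset_filter _
          (Finset.filter_subset _ _))
    _ = Nat.card R * ((2 * H + 1) / m + 1) ^ n := by
        rw [Finset.sum_const, nsmul_eq_mul, Set.toFinset_card, Nat.card_eq_fintype_card]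

/-- the Chinese remainder theorem for vectors -/
noncomputable def crt {m m' : ℕ} (h : m.Coprime m') :
    (Fin n → ZMod (m * m')) ≃ (Fin n → ZMod m) × (Fin n → ZMod m') :=
  ((Equiv.refl (Fin n)).arrowCongr (ZMod.chineseRemainder h).toEquiv).trans
    (Equiv.arrowProdEquivProdArrow _ _ _)

theorem crt_red {m m' : ℕ} (h : m.Coprime m') (a : Fin n → ℤ) :
    crt h (red (m * m') a) = (red m a, red m' a) := by
  refine Prod.ext (funext fun i => ?_) (funext fun i => ?_)
  · change (ZMod.chineseRemainder h ((a i : ℤ) : ZMod (m * m'))).1 = _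
    rw [map_intCast]
    rfl
  · change (ZMod.chineseRemainder h ((a i : ℤ) : ZMod (m * m'))).2 = _
    rw [map_intCast]
    rfl

variable (T : ∀ (p : ℕ) [Fact p.Prime], (Fin n → ZMod p) → Prop) {c : ℝ} {p₀ : ℕ}

theorem card_not_le {p : ℕ} [Fact p.Prime] {T : (Fin n → ZMod p) → Prop}
    (h : c * (p : ℝ) ^ n ≤ Nat.card {a : Fin n → ZMod p // T a}) :
    (Nat.card {a : Fin n → ZMod p // ¬ T a} : ℝ) ≤ (1 - c) * (p : ℝ) ^ n := by
  classical
  have h1 : Nat.card {a : Fin n → ZMod p // T a} + Nat.card {a : Fin n → ZMod p // ¬ T a} =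
      p ^ n := by
    rw [← Nat.card_sum, Nat.card_congr (Equiv.sumCompl T), Nat.card_fun, Nat.card_zmod,
      Nat.card_eq_fintype_card, Fintype.card_fin]
  have h2 : (Nat.card {a : Fin n → ZMod p // T a} : ℝ) +
      Nat.card {a : Fin n → ZMod p // ¬ T a} = (p : ℝ) ^ n := by exact_mod_cast h1
  linarith

theorem exists_mod (h : ∀ (p : ℕ) [Fact p.Prime], p₀ ≤ p →
    c * (p : ℝ) ^ n ≤ Nat.card {a : Fin n → ZMod p // T p a}) (hc : c ≤ 1) (k : ℕ) :
    ∃ m : ℕ, 0 < m ∧ ∃ R : Set (Fin n → ZMod m), (Nat.card R : ℝ) ≤ (1 - c) ^ k * (m : ℝ) ^ n ∧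
      ∀ a : Fin n → ℤ, (∀ (p : ℕ) [Fact p.Prime], p₀ ≤ p → ¬ T p (red p a)) → red m a ∈ R := by
  induction k with
  | zero =>
    refine ⟨1, one_pos, Set.univ, ?_, fun a _ => Set.mem_univ _⟩
    rw [pow_zero, Nat.cast_one, one_pow, mul_one, Nat.card_coe_set_eq, Set.ncard_univ,
      Nat.card_fun, Nat.card_zmod, one_pow, Nat.cast_one]
  | succ k ih =>
    obtain ⟨m, hm, R, hR, hR'⟩ := ih
    obtain ⟨p, hpm, hp⟩ := Nat.exists_infinite_primes (max (m + 1) p₀)
    have hp' : Fact p.Prime := ⟨hp⟩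
    have hcop : m.Coprime p := by
      refine (Nat.Coprime.symm ((Nat.Prime.coprime_iff_not_dvd hp).mpr fun hd => ?_))
      have h1 := Nat.le_of_dvd hm hd
      have h2 := le_of_max_le_left hpm
      omega
    refine ⟨m * p, Nat.mul_pos hm hp.pos, crt hcop ⁻¹' (R ×ˢ {x | ¬ T p x}), ?_, fun a ha => ?_⟩
    · have h1 : Nat.card (crt hcop ⁻¹' (R ×ˢ {x : Fin n → ZMod p | ¬ T p x}) : Set _) =
          Nat.card R * Nat.card {x : Fin n → ZMod p // ¬ T p x} := by
        have e : (crt hcop ⁻¹' (R ×ˢ {x : Fin n → ZMod p | ¬ T p x}) : Set _) ≃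
            (R ×ˢ {x : Fin n → ZMod p | ¬ T p x} : Set _) :=
          (crt hcop).subtypeEquiv fun x => Iff.rfl
        rw [Nat.card_congr e, Nat.card_congr (Equiv.Set.prod _ _), Nat.card_prod]
        rfl
      rw [h1, Nat.cast_mul, Nat.cast_mul, mul_pow, pow_succ]
      have h2 := card_not_le (h p (le_of_max_le_right hpm))
      calc (Nat.card R : ℝ) * Nat.card {x : Fin n → ZMod p // ¬ T p x}
          ≤ ((1 - c) ^ k * (m : ℝ) ^ n) * ((1 - c) * (p : ℝ) ^ n) :=
            mul_le_mul hR h2 (Nat.cast_nonneg _)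
              (mul_nonneg (pow_nonneg (sub_nonneg.mpr hc) _) (by positivity))
        _ = _ := by ring
    · change crt hcop (red (m * p) a) ∈ R ×ˢ {x | ¬ T p x}
      rw [crt_red]
      exact ⟨hR' a ha, ha p (le_of_max_le_right hpm)⟩

open Classical in
theorem boxStmt : BoxStmt := by
  intro n hn T c p₀ hc h
  -- `c ≤ 1`
  have hc1 : c ≤ 1 := by
    obtain ⟨p, hpm, hp⟩ := Nat.exists_infinite_primes p₀
    have hp' : Fact p.Prime := ⟨hp⟩
    have h1 := card_not_le (h p hpm)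
    have h2 : (0 : ℝ) < (p : ℝ) ^ n := by
      have := hp.pos
      positivity
    have h3 : 0 ≤ (1 - c) * (p : ℝ) ^ n := (Nat.cast_nonneg _).trans h1
    by_contra h4
    nlinarith [mul_pos (sub_pos.mpr (not_le.mp h4)) h2]
  rw [Metric.tendsto_atTop]
  intro ε hε
  obtain ⟨k, hk⟩ := exists_pow_lt_of_lt_one (half_pos hε) (by linarith : 1 - c < 1)
  obtain ⟨m, hm, R, hR, hR'⟩ := exists_mod T h hc1 k
  have hmR : (0 : ℝ) < m := by exact_mod_cast hm
  -- the limit
  have hlim : Tendsto (fun H : ℕ => (1 - c) ^ k * (1 + (m : ℝ) / (2 * H + 1)) ^ n) atTop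
      (𝓝 ((1 - c) ^ k * (1 + 0) ^ n)) := by
    refine Tendsto.const_mul _ (Tendsto.pow (Tendsto.const_add _ ?_) n)
    refine Tendsto.div_atTop tendsto_const_nhds ?_
    refine tendsto_atTop_add_const_right _ _ ?_
    exact (tendsto_natCast_atTop_atTop (R := ℝ)).const_mul_atTop (by norm_num)
  rw [add_zero, one_pow, mul_one] at hlim
  have hev := hlim.eventually (gt_mem_nhds (show (1 - c) ^ k < ε by linarith))
  obtain ⟨H₀, hH₀⟩ := eventually_atTop.mp hev
  refine ⟨H₀, fun H hH => ?_⟩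
  rw [Real.dist_eq, sub_zero, abs_of_nonneg (by positivity)]
  refine lt_of_le_of_lt ?_ (hH₀ H hH)
  have hN : (0 : ℝ) < 2 * H + 1 := by positivity
  rw [div_le_iff₀ (pow_pos hN n)]
  calc (((box n H).filter fun a => ∀ (p : ℕ) [Fact p.Prime], p₀ ≤ p → ¬ T p (red p a)).card : ℝ)
      ≤ (((box n H).filter fun a => red m a ∈ R).card : ℝ) := by
        have : (box n H).filter (fun a => ∀ (p : ℕ) [Fact p.Prime], p₀ ≤ p →
            ¬ T p (red p a)) ⊆ (box n H).filter fun a => red m a ∈ R := by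
          intro a ha
          rw [Finset.mem_filter] at ha ⊢
          exact ⟨ha.1, hR' a ha.2⟩
        exact_mod_cast Finset.card_le_card this
    _ ≤ Nat.card R * ((2 * H + 1) / m + 1) ^ n := card_box_le hm H R
    _ ≤ ((1 - c) ^ k * (m : ℝ) ^ n) * ((2 * H + 1) / m + 1) ^ n :=
        mul_le_mul_of_nonneg_right hR (by positivity)
    _ = (1 - c) ^ k * (1 + (m : ℝ) / (2 * H + 1)) ^ n * (2 * H + 1) ^ n := by
        rw [mul_assoc, mul_assoc, ← mul_pow, ← mul_pow]
        congr 2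
        field_simp

end Fermat.Agent.Cor.Vdw.Box
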