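import Fermat.Agent.Corollaries.Vdw.Main

/-!
# Consequences of the theorem of van der Waerden
-/

set_option autoImplicit false

namespace Fermat.Agent.Cor.Vdw

open Polynomial Filter Topology
open scoped Nat

/-- polynomials split over `ℂ` -/
theorem fact_splits (P : ℚ[X]) : Fact ((P.map (algebraMap ℚ ℂ)).Splits) := ⟨IsAlgClosed.splits _⟩

attribute [local instance] fact_splits

/-- a Galois group of order `n!` acts on the roots by all permutations -/
theorem bijective_galActionHom {P : ℚ[X]} (hs : P.Separable) (h : Nat.card P.Gal = P.natDegree !) :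
    Function.Bijective (Gal.galActionHom P ℂ) := by
  classical
  have hinj := Gal.galActionHom_injective P ℂ
  have hcard : Nat.card (P.rootSet ℂ) = P.natDegree := by
    rw [Nat.card_eq_fintype_card]
    exact card_rootSet_eq_natDegree hs (IsAlgClosed.splits _)
  have h1 : Nat.card (Equiv.Perm (P.rootSet ℂ)) = Nat.card P.Gal := by
    rw [Nat.card_perm, hcard, h]
  exact (Nat.bijective_iff_injective_and_card _).mpr ⟨hinj, h1.symm⟩

theorem natDegree_map_pol {n : ℕ} (a : Fin n → ℤ) :
    ((pol a).map (Int.castRingHom ℚ)).natDegree = n := by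
  rw [(Ded.monic_pol a).natDegree_map, Ded.natDegree_pol]

theorem IsFull.bijective {n : ℕ} {a : Fin n → ℤ} (h : IsFull a) :
    Function.Bijective (Gal.galActionHom ((pol a).map (Int.castRingHom ℚ)) ℂ) :=
  bijective_galActionHom h.1.separable (by rw [natDegree_map_pol, h.2])

open Classical in
/-- the general form: a property of all `a` with `IsFull a` holds for almost all `a` -/
theorem tendsto_of_isFull (hV : VdwStmt) {n : ℕ} (hn : 0 < n) {Q : (Fin n → ℤ) → Prop}
    (hQ : ∀ a, IsFull a → Q a) :
    Tendsto (fun H : ℕ => (((box n H).filter fun a => Q a).card : ℝ) / (2 * H + 1) ^ n)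
      atTop (𝓝 1) := by
  have h1 := hV n hn
  refine tendsto_of_tendsto_of_tendsto_of_le_of_le h1 tendsto_const_nhds (fun H => ?_)
    (fun H => ?_)
  · have hN : ((box n H).card : ℝ) = (2 * H + 1) ^ n := by
      rw [card_box]
      push_cast
      rfl
    change (((box n H).filter fun a => IsFull a).card : ℝ) / (box n H).card ≤ _
    rw [hN]
    refine div_le_div_of_nonneg_right ?_ (by positivity)
    exact_mod_cast Finset.card_le_card fun a ha => by
      rw [Finset.mem_filter] at ha ⊢
      exact ⟨ha.1, hQ a ha.2⟩
  · have hN : ((box n H).card : ℝ) = (2 * H + 1) ^ n := by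
      rw [card_box]
      push_cast
      rfl
    change _ ≤ (1 : ℝ)
    rw [← hN]
    refine div_le_one_of_le₀ ?_ (Nat.cast_nonneg _)
    exact_mod_cast Finset.card_le_card (Finset.filter_subset _ _)

open Classical in
/-- the complement has density zero -/
theorem tendsto_not_of_isFull (hV : VdwStmt) {n : ℕ} (hn : 0 < n) {Q : (Fin n → ℤ) → Prop}
    (hQ : ∀ a, IsFull a → ¬ Q a) :
    Tendsto (fun H : ℕ => (((box n H).filter fun a => Q a).card : ℝ) / (2 * H + 1) ^ n)
      atTop (𝓝 0) := by
  have h1 := (tendsto_of_isFull hV hn hQ).const_sub 1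
  rw [sub_self] at h1
  refine h1.congr fun H => ?_
  have hN : ((box n H).card : ℝ) = (2 * H + 1) ^ n := by
    rw [card_box]
    push_cast
    rfl
  have hN0 : (0 : ℝ) < (2 * H + 1) ^ n := by positivity
  rw [eq_div_iff hN0.ne', sub_mul, div_mul_cancel₀ _ hN0.ne', one_mul, ← hN, sub_eq_iff_eq_add]
  have h2 : ((box n H).filter fun a => Q a).card +
      (@Finset.filter _ (fun a => ¬ Q a) (fun a => Classical.propDecidable (¬ Q a))
        (box n H)).card = (box n H).card := by
    rw [← Finset.card_filter_add_card_filter_not (s := box n H) (fun a => Q a)]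
    congr!
  exact_mod_cast h2.symm

/-- a full polynomial of degree `≥ 5` has no root expressible by radicals -/
theorem IsFull.notMem_solvableByRad {n : ℕ} (hn : 5 ≤ n) {a : Fin n → ℤ} (h : IsFull a) {x : ℂ}
    (hx : aeval x ((pol a).map (Int.castRingHom ℚ)) = 0) : x ∉ solvableByRad ℚ ℂ := by
  classical
  intro hr
  set P := (pol a).map (Int.castRingHom ℚ) with hP
  have h1 := isSolvable_gal_of_irreducible hr h.1 hx
  have hcard : Fintype.card (P.rootSet ℂ) = n := by
    rw [card_rootSet_eq_natDegree h.1.separable (IsAlgClosed.splits _), natDegree_map_pol]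
  refine Equiv.Perm.not_isSolvable (P.rootSet ℂ) ?_
    (Group.isSolvable_of_surjective h.bijective.2)
  rw [Cardinal.mk_fintype, hcard]
  exact_mod_cast hn

end Fermat.Agent.Cor.Vdw
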