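import Fermat.Agent.Corollaries.Vdw.Irr

/-!
# The cycle types of the theorem of van der Waerden occur with positive proportion
-/

set_option autoImplicit false

open Polynomial
open scoped Nat

namespace Fermat.Agent.Cor.Vdw

namespace Count

theorem coeff_pol {R : Type*} [CommRing R] {n : ℕ} (a : Fin n → R) (i : Fin n) :
    (pol a).coeff i = a i := by
  have hi := i.2
  rw [pol, coeff_add, coeff_X_pow, if_neg (by omega), zero_add, finsetSum_coeff,
    Finset.sum_eq_single i]
  · rw [coeff_C_mul, coeff_X_pow, if_pos rfl, mul_one]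
  · intro j _ hj
    rw [coeff_C_mul, coeff_X_pow, if_neg (fun h => hj (Fin.ext h.symm)), mul_zero]
  · intro h
    exact absurd (Finset.mem_univ _) h

theorem pol_injective {R : Type*} [CommRing R] {n : ℕ} :
    Function.Injective (pol : (Fin n → R) → R[X]) := by
  intro a b h
  funext i
  rw [← coeff_pol a i, h, coeff_pol]

section

variable {k : Type*} [Field k] {d : ℕ}

/-- an irreducible polynomial times distinct linear polynomials -/
noncomputable def prd (b : Fin d → k) (S : Finset k) : k[X] := pol b * ∏ x ∈ S, (X - C x)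

theorem monic_prd (b : Fin d → k) (S : Finset k) : (prd b S).Monic :=
  (Irr.natDegree_pol b).2.mul (monic_prod_of_monic _ _ fun x _ => monic_X_sub_C x)

theorem natDegree_prd (b : Fin d → k) (S : Finset k) : (prd b S).natDegree = d + S.card := by
  rw [prd, (Irr.natDegree_pol b).2.natDegree_mul
    (monic_prod_of_monic _ _ fun x _ => monic_X_sub_C x), (Irr.natDegree_pol b).1,
    natDegree_prod_of_monic _ _ fun x _ => monic_X_sub_C x]
  simp

theorem hasType_prd [PerfectField k] {n : ℕ} {b : Fin d → k} {S : Finset k}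
    (hb : Irreducible (pol b)) (hS : S = ∅ ∨ 2 ≤ d) (hn : d + S.card = n) :
    HasType (d ::ₘ Multiset.replicate S.card 1) (fun i : Fin n => (prd b S).coeff i) := by
  have hpol : pol (fun i : Fin n => (prd b S).coeff i) = prd b S :=
    Irr.pol_coeff (monic_prd b S) ((natDegree_prd b S).trans hn)
  rw [HasType, hpol]
  constructor
  · rw [prd]
    refine Separable.mul (PerfectField.separable_of_irreducible hb) ?_ ?_
    · rw [separable_prod_X_sub_C_iff']
      exact fun x _ y _ h => h
    · refine IsCoprime.prod_right fun x hx => ?_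
      rw [hb.coprime_iff_not_dvd]
      intro hdvd
      rcases hS with hS | hS
      · rw [hS] at hx
        exact absurd hx (Finset.notMem_empty x)
      · have h1 := natDegree_le_of_dvd hdvd (X_sub_C_ne_zero x)
        rw [(Irr.natDegree_pol b).1, natDegree_X_sub_C] at h1
        omega
  · have hrel : Multiset.Rel Associated (UniqueFactorizationMonoid.factors (prd b S))
        (pol b ::ₘ S.val.map fun x => (X - C x : k[X])) := by
      refine UniqueFactorizationMonoid.factors_unique
        (fun x hx => UniqueFactorizationMonoid.irreducible_of_factor x hx) ?_ ?_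
      · intro x hx
        rw [Multiset.mem_cons] at hx
        rcases hx with rfl | hx
        · exact hb
        · obtain ⟨y, _, rfl⟩ := Multiset.mem_map.mp hx
          exact irreducible_X_sub_C y
      · refine (UniqueFactorizationMonoid.factors_prod (monic_prd b S).ne_zero).trans ?_
        rw [Multiset.prod_cons]
        exact Associated.refl _
    have h2 : (UniqueFactorizationMonoid.factors (prd b S)).map natDegree =
        (pol b ::ₘ S.val.map fun x => (X - C x : k[X])).map natDegree := by
      rw [← Multiset.rel_eq, Multiset.rel_map]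
      refine hrel.mono fun x _ y _ hxy => ?_
      exact natDegree_eq_of_degree_eq (degree_eq_degree_of_associated hxy)
    rw [h2, Multiset.map_cons, (Irr.natDegree_pol b).1, Multiset.map_map]
    congr 1
    have h3 : (natDegree ∘ fun x : k => (X - C x : k[X])) = fun _ => 1 := by
      funext x
      exact natDegree_X_sub_C x
    rw [h3, Multiset.map_const', Finset.card_def]

theorem prd_injective {b b' : Fin d → k} {S S' : Finset k} (hb : Irreducible (pol b))
    (hb' : Irreducible (pol b')) (hSS : S.card = S'.card) (hS : S = ∅ ∨ 2 ≤ d)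
    (h : prd b S = prd b' S') : b = b' ∧ S = S' := by
  have hr : 2 ≤ d → ∀ c : Fin d → k, Irreducible (pol c) → (pol c).roots = 0 := by
    intro hd c hc
    rw [Multiset.eq_zero_iff_forall_notMem]
    intro x hx
    have h1 : X - C x ∣ pol c := dvd_iff_isRoot.mpr (isRoot_of_mem_roots hx)
    have h2 := (irreducible_X_sub_C x).associated_of_dvd hc h1
    have h3 := natDegree_eq_of_degree_eq (degree_eq_degree_of_associated h2)
    rw [(Irr.natDegree_pol c).1, natDegree_X_sub_C] at h3
    omega
  have hSS' : S = S' := by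
    rcases hS with hS | hd
    · rw [hS, Finset.card_empty] at hSS
      rw [hS, Finset.card_eq_zero.mp hSS.symm]
    · have h1 : ∀ (c : Fin d → k) (T : Finset k), Irreducible (pol c) →
          (prd c T).roots = T.val := by
        intro c T hc
        have h0 := (monic_prd c T).ne_zero
        rw [prd] at h0 ⊢
        rw [roots_mul h0, hr hd c hc, zero_add, roots_prod_X_sub_C]
      apply Finset.val_injective
      rw [← h1 b S hb, h, h1 b' S' hb']
  refine ⟨?_, hSS'⟩
  subst hSS'
  rw [prd, prd] at h
  exact pol_injective (mul_right_cancel₀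
    (monic_prod_of_monic _ _ fun x _ => monic_X_sub_C x : (∏ x ∈ S, (X - C x)).Monic).ne_zero h)

end

/-- the number of products -/
theorem card_le (p : ℕ) [Fact p.Prime] (d k n : ℕ) (hn : d + k = n) (hk : k = 0 ∨ 2 ≤ d) :
    Nat.card {b : Fin d → ZMod p // Irreducible (pol b)} * p.choose k ≤
      Nat.card {a : Fin n → ZMod p // HasType (d ::ₘ Multiset.replicate k 1) a} := by
  classical
  have h1 : Nat.card {S : Finset (ZMod p) // S.card = k} = p.choose k := by
    rw [Nat.card_eq_fintype_card, Fintype.card_finset_len, ZMod.card]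
  rw [← h1, ← Nat.card_prod]
  have hS : ∀ S : Finset (ZMod p), S.card = k → S = ∅ ∨ 2 ≤ d := by
    intro S h
    rcases hk with hk | hk
    · exact Or.inl (Finset.card_eq_zero.mp (h.trans hk))
    · exact Or.inr hk
  refine Nat.card_le_card_of_injective (fun x => ⟨fun i => (prd x.1.1 x.2.1).coeff i, ?_⟩) ?_
  · have h2 := hasType_prd x.1.2 (hS _ x.2.2) ((congrArg (d + ·) x.2.2).trans hn)
    rwa [x.2.2] at h2
  · rintro ⟨⟨b, hb⟩, ⟨S, hSk⟩⟩ ⟨⟨b', hb'⟩, ⟨S', hSk'⟩⟩ h
    have h3 := congrArg Subtype.val h
    have h4 : prd b S = prd b' S' := by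
      rw [← Irr.pol_coeff (n := n) (monic_prd b S) ((natDegree_prd b S).trans (by omega)),
        ← Irr.pol_coeff (n := n) (monic_prd b' S') ((natDegree_prd b' S').trans (by omega))]
      exact congrArg pol h3
    obtain ⟨h5, h6⟩ := prd_injective hb hb' (hSk.trans hSk'.symm) (hS S hSk) h4
    subst h5
    subst h6
    rfl

/-- the proportion -/
theorem exists_const (hN : IrrStmt) (d k n : ℕ) (hd : 0 < d) (hn : d + k = n)
    (hk : k = 0 ∨ 2 ≤ d) : ∃ c : ℝ, 0 < c ∧ ∃ p₀ : ℕ, ∀ (p : ℕ) [Fact p.Prime], p₀ ≤ p →
    c * (p : ℝ) ^ n ≤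
      Nat.card {a : Fin n → ZMod p // HasType (d ::ₘ Multiset.replicate k 1) a} := by
  have hd' : (0 : ℝ) < d := by exact_mod_cast hd
  have hk' : (0 : ℝ) < k ! := by exact_mod_cast Nat.factorial_pos k
  refine ⟨1 / (2 * d * (2 ^ k * k !)), by positivity, max 3 (2 * k), fun p hp hp0 => ?_⟩
  have hp3 : 3 ≤ p := (le_max_left _ _).trans hp0
  have hp2k : 2 * k ≤ p := (le_max_right _ _).trans hp0
  have h1 : (p : ℝ) ^ d ≤ 2 * d * Nat.card {b : Fin d → ZMod p // Irreducible (pol b)} := by
    exact_mod_cast hN d hd p hp3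
  have h2 : (p : ℝ) ^ k ≤ 2 ^ k * k ! * p.choose k := by
    have h3 := Nat.pow_le_choose (α := ℝ) k p
    have h4 : (p : ℝ) / 2 ≤ ((p + 1 - k : ℕ) : ℝ) := by
      rw [Nat.cast_sub (by omega)]
      have : (2 * k : ℝ) ≤ p := by exact_mod_cast hp2k
      push_cast
      linarith
    have h5 : ((p : ℝ) / 2) ^ k ≤ ((p + 1 - k : ℕ) : ℝ) ^ k :=
      pow_le_pow_left₀ (by positivity) h4 k
    rw [div_le_iff₀ hk'] at h3
    have h6 := h5.trans h3
    rw [div_pow, div_le_iff₀ (by positivity)] at h6
    linarith
  have h7 : ((Nat.card {b : Fin d → ZMod p // Irreducible (pol b)} * p.choose k : ℕ) : ℝ) ≤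
      Nat.card {a : Fin n → ZMod p // HasType (d ::ₘ Multiset.replicate k 1) a} := by
    exact_mod_cast card_le p d k n hn hk
  refine le_trans ?_ h7
  rw [← hn, pow_add, one_div, inv_mul_le_iff₀ (by positivity)]
  have h8 := mul_le_mul h1 h2 (by positivity) (by positivity)
  refine h8.trans (le_of_eq ?_)
  push_cast
  ring

end Count

/-- (C) from (N) -/
theorem countStmt_of (hN : IrrStmt) : CountStmt := by
  intro n hn m hm
  rcases hm with rfl | ⟨hn3, rfl | rfl⟩
  · exact Count.exists_const hN n 0 n hn rfl (Or.inl rfl)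
  · exact Count.exists_const hN (n - 1) 1 n (by omega) (by omega) (Or.inr (by omega))
  · exact Count.exists_const hN 2 (n - 2) n (by omega) (by omega) (Or.inr le_rfl)

/-- (C) -/
theorem countStmt : CountStmt := countStmt_of irrStmt

end Fermat.Agent.Cor.Vdw
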