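import Fermat.Agent.Corollaries.Vdw.Defs
import Fermat.Agent.Corollaries.ZetaK.CycleType
import Fermat.Agent.Corollaries.ChebK.FacFin
import Fermat.Agent.Frob.Exists

/-!
# Dedekind's theorem

`f ∈ ℤ[X]` monic, `p` a prime such that `f mod p` is separable: the Galois group of `f` contains a
permutation of the roots whose cycles have the lengths of the degrees of the irreducible factors of
`f mod p`.
-/

set_option autoImplicit false

namespace Fermat.Agent.Cor.Vdw.Ded

open Polynomial Fermat.Agent.Cor.Vdw

local notation "Qbar" => AlgebraicClosure ℚ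
local notation "GQ" => AlgebraicClosure ℚ ≃ₐ[ℚ] AlgebraicClosure ℚ

section Pol

variable {R S : Type*} [CommRing R] [CommRing S] {n : ℕ}

theorem map_pol (φ : R →+* S) (a : Fin n → R) : (pol a).map φ = pol (fun i => φ (a i)) := by
  rw [pol, pol, Polynomial.map_add, Polynomial.map_pow, map_X, Polynomial.map_sum]
  congr 1
  exact Finset.sum_congr rfl fun i _ => by rw [Polynomial.map_mul, map_C, Polynomial.map_pow, map_X]

theorem degree_sum_lt (a : Fin n → R) :
    (∑ i : Fin n, C (a i) * X ^ (i : ℕ)).degree < (n : WithBot ℕ) := by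
  refine (degree_sum_le _ _).trans_lt ?_
  rw [Finset.sup_lt_iff (by exact WithBot.bot_lt_coe n)]
  intro i _
  exact (degree_C_mul_X_pow_le _ _).trans_lt (by exact_mod_cast i.2)

theorem monic_pol (a : Fin n → R) : (pol a).Monic := monic_X_pow_add (degree_sum_lt a)

theorem natDegree_pol [Nontrivial R] (a : Fin n → R) : (pol a).natDegree = n := by
  have h : (X ^ n + ∑ i : Fin n, C (a i) * X ^ (i : ℕ)).degree = (X ^ n : R[X]).degree :=
    degree_add_eq_left_of_degree_lt (by rw [degree_X_pow]; exact degree_sum_lt a)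
  rw [natDegree, pol, h, degree_X_pow]
  rfl

end Pol

theorem exists_fin_map {κ : Type*} (s : Multiset κ) {n : ℕ} (h : Multiset.card s = n) :
    ∃ α : Fin n → κ, s = Finset.univ.val.map α := by
  subst h
  induction s using Quotient.inductionOn with
  | h l =>
    refine ⟨l.get, ?_⟩
    have h1 : Finset.univ.val.map l.get = (l : Multiset κ) := by
      rw [Fin.univ_val_map, List.ofFn_get]
    exact h1.symm

open UniqueFactorizationMonoid in
/-- Frobenius on the roots and its cycle type -/
theorem parts_of_frob {k κ : Type*} [Field k] [Finite k] [Field κ] (j : k →+* κ) {n : ℕ} {f : k[X]}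
    (hf : f ≠ 0) (hn : f.natDegree = n) {α : Fin n → κ} (hα : Function.Injective α)
    (hroots : (f.map j).roots = Finset.univ.val.map α) {τ : Equiv.Perm (Fin n)}
    (hτ : ∀ i, α (τ i) = α i ^ Nat.card k) :
    τ.partition.parts = (factors f).map natDegree := by
  classical
  have hpow : ∀ (m : ℕ) (i), α ((τ ^ m) i) = α i ^ Nat.card k ^ m := by
    intro m
    induction m with
    | zero => intro i; rw [pow_zero, pow_zero, pow_one]; rfl
    | succ m ih => intro i; rw [pow_succ', Equiv.Perm.mul_apply, hτ, ih, ← pow_mul, pow_succ]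
  refine (Frob.parts_eq (fun x hx => ?_) fun m => ?_).symm
  · obtain ⟨g, hg, rfl⟩ := Multiset.mem_map.mp hx
    exact (irreducible_of_factor g hg).natDegree_pos
  · have h1 : Multiset.card (f.map j).roots = f.natDegree := by
      rw [hroots, Multiset.card_map, hn]
      change Finset.univ.card = _
      rw [Finset.card_univ, Fintype.card_fin]
    rw [← ChebK.FacFin.countP_roots j hf h1 m, hroots, Multiset.countP_map,
      Nat.card_eq_fintype_card (α := {x // (τ ^ m) x = x}), Fintype.card_subtype]
    change (Finset.univ.filter _).card = (Finset.univ.filter _).card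
    congr 1
    ext i
    rw [Finset.mem_filter, Finset.mem_filter, ← hpow]
    exact and_congr_right fun _ => ⟨fun h => hα h, fun h => by rw [h]⟩

section Act

variable {n : ℕ} {P : ℚ[X]} {α : Fin n → Qbar}

theorem exists_perm (hP : P ≠ 0) (hα : Function.Injective α)
    (hroots : (P.map (algebraMap ℚ Qbar)).roots = Finset.univ.val.map α) (σ : GQ) :
    ∃ τ : Equiv.Perm (Fin n), ∀ i, α (τ i) = σ (α i) := by
  classical
  have hP0 : P.map (algebraMap ℚ Qbar) ≠ 0 := (Polynomial.map_ne_zero_iff
    (algebraMap ℚ Qbar).injective).mpr hP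
  have hmem : ∀ x, aeval x P = 0 ↔ ∃ i, α i = x := by
    intro x
    rw [aeval_def, eval₂_eq_eval_map, ← IsRoot.def, ← mem_roots hP0, hroots, Multiset.mem_map]
    exact ⟨fun ⟨i, _, h⟩ => ⟨i, h⟩, fun ⟨i, h⟩ => ⟨i, Finset.mem_univ i, h⟩⟩
  have hex : ∀ i, ∃ j, α j = σ (α i) := by
    intro i
    have h1 := aeval_algHom_apply (σ : Qbar →ₐ[ℚ] Qbar) (α i) P
    rw [(hmem _).mpr ⟨i, rfl⟩, map_zero] at h1
    exact (hmem _).mp h1
  choose t ht using hex
  have htinj : Function.Injective t := by
    intro i j hij
    apply hα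
    apply σ.injective
    rw [← ht, ← ht, hij]
  exact ⟨Equiv.ofBijective t ((Finite.injective_iff_bijective).mp htinj), ht⟩

/-- the action on the roots -/
noncomputable def rho (hP : P ≠ 0) (hα : Function.Injective α)
    (hroots : (P.map (algebraMap ℚ Qbar)).roots = Finset.univ.val.map α) :
    GQ →* Equiv.Perm (Fin n) where
  toFun σ := (exists_perm hP hα hroots σ).choose
  map_one' := by
    ext i
    have h := (exists_perm hP hα hroots 1).choose_spec i
    rw [hα h]
    rfl
  map_mul' σ τ := by
    ext i
    have h1 := (exists_perm hP hα hroots (σ * τ)).choose_spec i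
    have h2 := (exists_perm hP hα hroots τ).choose_spec i
    have h3 := (exists_perm hP hα hroots σ).choose_spec
      ((exists_perm hP hα hroots τ).choose i)
    have h4 : (exists_perm hP hα hroots (σ * τ)).choose i =
        (exists_perm hP hα hroots σ).choose ((exists_perm hP hα hroots τ).choose i) := by
      apply hα
      rw [h1, h3, h2]
      rfl
    rw [h4]
    rfl

theorem rho_apply (hP : P ≠ 0) (hα : Function.Injective α)
    (hroots : (P.map (algebraMap ℚ Qbar)).roots = Finset.univ.val.map α) (σ : GQ) (i : Fin n) :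
    α (rho hP hα hroots σ i) = σ (α i) := (exists_perm hP hα hroots σ).choose_spec i

/-- the image has the order of the Galois group -/
theorem card_range_rho (hP : P ≠ 0) (hα : Function.Injective α)
    (hroots : (P.map (algebraMap ℚ Qbar)).roots = Finset.univ.val.map α) :
    Nat.card (rho hP hα hroots).range = Nat.card P.Gal := by
  classical
  have hP0 : P.map (algebraMap ℚ Qbar) ≠ 0 := (Polynomial.map_ne_zero_iff
    (algebraMap ℚ Qbar).injective).mpr hP
  have hsplit : Fact ((P.map (algebraMap ℚ Qbar)).Splits) := ⟨IsAlgClosed.splits _⟩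
  have hmem : ∀ x, x ∈ P.rootSet Qbar ↔ ∃ i, α i = x := by
    intro x
    rw [mem_rootSet, aeval_def, eval₂_eq_eval_map, ← IsRoot.def, ← mem_roots hP0, hroots,
      Multiset.mem_map]
    exact ⟨fun ⟨_, i, _, h⟩ => ⟨i, h⟩, fun ⟨i, h⟩ => ⟨hP, i, Finset.mem_univ i, h⟩⟩
  have hker : (rho hP hα hroots).ker = (Gal.restrict P Qbar).ker := by
    ext σ
    rw [MonoidHom.mem_ker, MonoidHom.mem_ker]
    have h1 : rho hP hα hroots σ = 1 ↔ ∀ i, σ (α i) = α i := by
      constructor
      · intro h i
        rw [← rho_apply hP hα hroots, h]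
        rfl
      · intro h
        ext i
        have h2 := rho_apply hP hα hroots σ i
        rw [h i] at h2
        rw [hα h2]
        rfl
    have h3 : Gal.restrict P Qbar σ = 1 ↔ ∀ x : P.rootSet Qbar, σ x = x := by
      rw [← (Gal.galActionHom_injective P Qbar).eq_iff, map_one]
      constructor
      · intro h x
        rw [← Gal.galActionHom_restrict P Qbar σ x, h]
        rfl
      · intro h
        ext x
        rw [Gal.galActionHom_restrict]
        exact h x
    rw [h1, h3]
    constructor
    · rintro h ⟨x, hx⟩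
      obtain ⟨i, rfl⟩ := (hmem x).mp hx
      exact h i
    · intro h i
      exact h ⟨α i, (hmem _).mpr ⟨i, rfl⟩⟩
  rw [← Subgroup.index_ker, hker, Subgroup.index_ker,
    MonoidHom.range_eq_top.mpr (Gal.restrict_surjective P Qbar), Subgroup.card_top]

/-- a transitive Galois group -/
theorem irreducible_of_transitive (hn : 0 < n) (hm : P.Monic) (hdeg : P.natDegree = n)
    (hα : Function.Injective α)
    (hroots : (P.map (algebraMap ℚ Qbar)).roots = Finset.univ.val.map α)
    (htr : ∀ i j, ∃ σ : GQ, σ (α i) = α j) : Irreducible P := by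
  classical
  have hP0 : P.map (algebraMap ℚ Qbar) ≠ 0 := (hm.map _).ne_zero
  let i₀ : Fin n := ⟨0, hn⟩
  have hroot : aeval (α i₀) P = 0 := by
    rw [aeval_def, eval₂_eq_eval_map, ← IsRoot.def, ← mem_roots hP0, hroots, Multiset.mem_map]
    exact ⟨i₀, Finset.mem_univ i₀, rfl⟩
  have hint : IsIntegral ℚ (α i₀) := ⟨P, hm, hroot⟩
  set q := minpoly ℚ (α i₀) with hq
  have hdvd : q ∣ P := minpoly.dvd ℚ _ hroot
  have hq0 : q.map (algebraMap ℚ Qbar) ≠ 0 := ((minpoly.monic hint).map _).ne_zero
  have hcard : n ≤ q.natDegree := by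
    have h1 : Finset.univ.image α ⊆ (q.map (algebraMap ℚ Qbar)).roots.toFinset := by
      intro x hx
      obtain ⟨j, -, rfl⟩ := Finset.mem_image.mp hx
      obtain ⟨σ, hσ⟩ := htr i₀ j
      rw [Multiset.mem_toFinset, mem_roots hq0, IsRoot.def, ← eval₂_eq_eval_map, ← aeval_def,
        ← hσ]
      have h2 := aeval_algHom_apply (σ : Qbar →ₐ[ℚ] Qbar) (α i₀) q
      rw [hq, minpoly.aeval, map_zero] at h2
      exact h2
    have h3 := Finset.card_le_card h1
    rw [Finset.card_image_of_injective _ hα, Finset.card_univ, Fintype.card_fin] at h3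
    refine h3.trans ((Multiset.toFinset_card_le _).trans ((card_roots' _).trans ?_))
    rw [natDegree_map]
  have heq : P = q := (eq_of_monic_of_dvd_of_natDegree_le (minpoly.monic hint) hm hdvd
    (by rw [hdeg]; exact hcard))
  rw [heq]
  exact minpoly.irreducible hint

end Act

section Red

variable {p : ℕ} [Fact p.Prime] {n : ℕ}

/-- the reduction of the roots -/
theorem exists_reduction {a : Fin n → ℤ} (hsep : (pol (red p a)).Separable) {α : Fin n → Qbar}
    (hroots : ((pol a).map (algebraMap ℤ Qbar)).roots = Finset.univ.val.map α)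
    {A : ValuationSubring Qbar} (hA : A.LiesOverPrime p) {σ : GQ} (hσ : A.IsFrobeniusAt σ p)
    {τ : Equiv.Perm (Fin n)} (hτ : ∀ i, α (τ i) = σ (α i)) :
    τ.partition.parts = (UniqueFactorizationMonoid.factors (pol (red p a))).map natDegree := by
  classical
  have hp : p.Prime := Fact.out
  have hF0 : (pol a).map (algebraMap ℤ Qbar) ≠ 0 := ((monic_pol a).map _).ne_zero
  -- the roots are in `A`
  have hmem : ∀ i, α i ∈ A := by
    intro i
    have h1 : α i ∈ ((pol a).map (algebraMap ℤ Qbar)).roots := by
      rw [hroots, Multiset.mem_map]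
      exact ⟨i, Finset.mem_univ i, rfl⟩
    have h2 : IsIntegral ℤ (α i) := ⟨pol a, monic_pol a, by
      rw [← eval_map]
      exact isRoot_of_mem_roots h1⟩
    have h3 : IsIntegral A (α i) := h2.tower_top
    obtain ⟨y, hy⟩ := IsIntegrallyClosed.isIntegral_iff.mp h3
    rw [← hy]
    exact y.2
  let β : Fin n → A := fun i => ⟨α i, hmem i⟩
  let κ := IsLocalRing.ResidueField A
  let r : A →+* κ := IsLocalRing.residue A
  let γ : Fin n → κ := fun i => r (β i)
  have hspl : ((pol a).map (algebraMap ℤ Qbar)).Splits := IsAlgClosed.splits _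
  have hprodL : (pol a).map (algebraMap ℤ Qbar) = ((Finset.univ.val.map α).map
      fun x => X - C x).prod := by
    rw [← hroots]
    exact hspl.eq_prod_roots_of_monic ((monic_pol a).map _)
  have hprodA : (pol a).map (algebraMap ℤ A) = ((Finset.univ.val.map β).map
      fun x => X - C x).prod := by
    apply Polynomial.map_injective (algebraMap A Qbar) Subtype.val_injective
    rw [Polynomial.map_map, Polynomial.map_multiset_prod, Multiset.map_map, Multiset.map_map]
    have h1 : (algebraMap A Qbar).comp (algebraMap ℤ A) = algebraMap ℤ Qbar :=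
      RingHom.ext_int _ _
    rw [h1, hprodL, Multiset.map_map]
    congr 1
    refine Multiset.map_congr rfl fun i _ => ?_
    simp only [Function.comp_apply, Polynomial.map_sub, map_X, map_C]
    rfl
  -- the residue field
  have hpκ : (p : κ) = 0 := by
    have h1 : ((p : A) : Qbar) ∈ A.nonunits := by
      have h2 := hA
      rw [ValuationSubring.LiesOverPrime] at h2
      simpa using h2
    have h3 : (p : A) ∈ IsLocalRing.maximalIdeal A :=
      ValuationSubring.coe_mem_nonunits_iff.mp h1
    have h4 : r (p : A) = 0 := (IsLocalRing.residue_eq_zero_iff _).mpr h3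
    rwa [map_natCast] at h4
  have hchar : CharP κ p := (CharP.charP_iff_prime_eq_zero hp).mpr hpκ
  let j : ZMod p →+* κ := ZMod.castHom (dvd_refl p) κ
  have hmap : (pol (red p a)).map j = ((Finset.univ.val.map γ).map fun x => X - C x).prod := by
    have h1 : (pol (red p a)).map j = ((pol a).map (algebraMap ℤ A)).map r := by
      have h2 : pol (red p a) = (pol a).map (Int.castRingHom (ZMod p)) := by
        rw [map_pol]
        rfl
      rw [h2, Polynomial.map_map, Polynomial.map_map]
      congr 1
      exact RingHom.ext_int _ _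
    rw [h1, hprodA, Polynomial.map_multiset_prod, Multiset.map_map, Multiset.map_map,
      Multiset.map_map]
    congr 1
    refine Multiset.map_congr rfl fun i _ => ?_
    simp only [Function.comp_apply, Polynomial.map_sub, map_X, map_C]
    rfl
  have hrt : ((pol (red p a)).map j).roots = Finset.univ.val.map γ := by
    rw [hmap, roots_multiset_prod_X_sub_C]
  have hγ : Function.Injective γ := by
    have h1 : ((pol (red p a)).map j).roots.Nodup := nodup_roots hsep.map
    rw [hrt] at h1
    intro x y hxy
    exact Multiset.inj_on_of_nodup_map h1 x (Finset.mem_univ x) y (Finset.mem_univ y) hxy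
  refine parts_of_frob j (monic_pol _).ne_zero (natDegree_pol _) hγ hrt fun i => ?_
  have h1 := hσ.smul_residue_eq (r (β i))
  rw [Nat.card_zmod]
  change r (β (τ i)) = r (β i) ^ p
  rw [← h1]
  change _ = (⟨σ, hσ.mem_decompositionSubgroup⟩ : A.decompositionSubgroup ℚ) •
    IsLocalRing.residue A (β i)
  rw [← IsLocalRing.ResidueField.residue_smul]
  congr 1
  exact Subtype.ext (hτ i)

end Red

theorem dedStmt : DedStmt := by
  classical
  intro n a hn hsep
  set P := (pol a).map (Int.castRingHom ℚ) with hP
  have hm : P.Monic := (monic_pol a).map _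
  have hdeg : P.natDegree = n := by
    rw [hP, (monic_pol a).natDegree_map, natDegree_pol]
  have hmapP : P.map (algebraMap ℚ Qbar) = (pol a).map (algebraMap ℤ Qbar) := by
    rw [hP, Polynomial.map_map]
    congr 1
  have hcard : Multiset.card (P.map (algebraMap ℚ Qbar)).roots = n := by
    rw [← (IsAlgClosed.splits (P.map (algebraMap ℚ Qbar))).natDegree_eq_card_roots, natDegree_map,
      hdeg]
  obtain ⟨α, hroots⟩ := exists_fin_map _ hcard
  have hα : Function.Injective α := by
    have h1 : (P.map (algebraMap ℚ Qbar)).roots.Nodup := nodup_roots hsep.map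
    rw [hroots] at h1
    intro x y hxy
    exact Multiset.inj_on_of_nodup_map h1 x (Finset.mem_univ x) y (Finset.mem_univ y) hxy
  refine ⟨(rho hm.ne_zero hα hroots).range, ?_, card_range_rho _ _ _, fun htr => ?_⟩
  · rintro p hp m ⟨hs, rfl⟩
    obtain ⟨A, hA, σ, hσ⟩ := Fermat.Agent.Frob.exists_frobenius p hp.out
    exact ⟨_, ⟨σ, rfl⟩, exists_reduction hs (by rw [← hmapP, hroots]) hA hσ
      (rho_apply hm.ne_zero hα hroots σ)⟩
  · refine irreducible_of_transitive hn hm hdeg hα hroots fun i j => ?_
    obtain ⟨⟨_, σ, rfl⟩, hg⟩ := htr.exists_smul_eq i j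
    refine ⟨σ, ?_⟩
    rw [← rho_apply hm.ne_zero hα hroots]
    exact congrArg α hg

end Fermat.Agent.Cor.Vdw.Ded
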