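import Mathlib

/-!
# Almost all integral polynomials have Galois group `S_n` (van der Waerden): definitions

The cut: the five statements below; `Main` deduces the theorem from them.
-/

set_option autoImplicit false

namespace Fermat.Agent.Cor.Vdw

open Polynomial Filter Topology
open scoped Nat

/-- the monic polynomial `X ^ n + a_{n-1} X ^ (n-1) + ... + a_0` -/
noncomputable def pol {R : Type*} [CommRing R] {n : ℕ} (a : Fin n → R) : R[X] :=
  X ^ n + ∑ i : Fin n, C (a i) * X ^ (i : ℕ)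

/-- the coefficient vectors with `|a_i| ≤ H` -/
noncomputable def box (n H : ℕ) : Finset (Fin n → ℤ) :=
  Fintype.piFinset fun _ => Finset.Icc (-(H : ℤ)) H

/-- the reduction modulo `p` -/
def red {n : ℕ} (p : ℕ) (a : Fin n → ℤ) : Fin n → ZMod p := fun i => (a i : ZMod p)

/-- `pol a` is separable and its irreducible factors have the degrees `m` -/
def HasType {k : Type*} [Field k] {n : ℕ} (m : Multiset ℕ) (a : Fin n → k) : Prop :=
  (pol a).Separable ∧ (UniqueFactorizationMonoid.factors (pol a)).map natDegree = m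

/-- `pol a` is irreducible over `ℚ` and its Galois group is the full symmetric group -/
def IsFull {n : ℕ} (a : Fin n → ℤ) : Prop :=
  Irreducible ((pol a).map (Int.castRingHom ℚ)) ∧
    Nat.card ((pol a).map (Int.castRingHom ℚ)).Gal = n !

/-- (G) group theory -/
def GroupStmt : Prop := ∀ (n : ℕ), 3 ≤ n → ∀ G : Subgroup (Equiv.Perm (Fin n)),
  (∃ g ∈ G, g.partition.parts = {n}) → (∃ g ∈ G, g.partition.parts = {n - 1, 1}) →
  (∃ g ∈ G, g.partition.parts = 2 ::ₘ Multiset.replicate (n - 2) 1) → G = ⊤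

/-- (D) Dedekind's theorem -/
def DedStmt : Prop := ∀ (n : ℕ) (a : Fin n → ℤ), 0 < n →
  ((pol a).map (Int.castRingHom ℚ)).Separable → ∃ G : Subgroup (Equiv.Perm (Fin n)),
    (∀ (p : ℕ) [Fact p.Prime] (m : Multiset ℕ), HasType m (red p a) →
      ∃ g ∈ G, g.partition.parts = m) ∧
    Nat.card G = Nat.card ((pol a).map (Int.castRingHom ℚ)).Gal ∧
    (MulAction.IsPretransitive G (Fin n) → Irreducible ((pol a).map (Int.castRingHom ℚ)))

/-- (N) the number of monic irreducible polynomials -/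
def IrrStmt : Prop := ∀ (d : ℕ), 0 < d → ∀ (p : ℕ) [Fact p.Prime], 3 ≤ p →
  p ^ d ≤ 2 * d * Nat.card {a : Fin d → ZMod p // Irreducible (pol a)}

/-- (C) positive proportions -/
def CountStmt : Prop := ∀ (n : ℕ), 0 < n → ∀ m : Multiset ℕ,
  (m = {n} ∨ (3 ≤ n ∧ (m = {n - 1, 1} ∨ m = 2 ::ₘ Multiset.replicate (n - 2) 1))) →
  ∃ c : ℝ, 0 < c ∧ ∃ p₀ : ℕ, ∀ (p : ℕ) [Fact p.Prime], p₀ ≤ p →
    c * (p : ℝ) ^ n ≤ Nat.card {a : Fin n → ZMod p // HasType m a}

open Classical in
/-- (B) the sieve -/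
def BoxStmt : Prop := ∀ (n : ℕ), 0 < n → ∀ (T : ∀ (p : ℕ) [Fact p.Prime], (Fin n → ZMod p) → Prop)
  (c : ℝ) (p₀ : ℕ), 0 < c →
  (∀ (p : ℕ) [Fact p.Prime], p₀ ≤ p → c * (p : ℝ) ^ n ≤ Nat.card {a : Fin n → ZMod p // T p a}) →
  Tendsto (fun H : ℕ => (((box n H).filter fun a => ∀ (p : ℕ) [Fact p.Prime], p₀ ≤ p →
    ¬ T p (red p a)).card : ℝ) / (2 * H + 1) ^ n) atTop (𝓝 0)

open Classical in
/-- **the theorem of van der Waerden** -/
def VdwStmt : Prop := ∀ (n : ℕ), 0 < n →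
  Tendsto (fun H : ℕ => (((box n H).filter fun a => IsFull a).card : ℝ) / (box n H).card)
    atTop (𝓝 1)

end Fermat.Agent.Cor.Vdw
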