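import Fermat.Agent.Corollaries.Vdw.Final
import Fermat.Agent.Corollaries.ZetaK.FrobFinal

/-!
# Factorization of a polynomial modulo the primes: densities

The theorem of Frobenius for polynomials over `ℤ`, and its combination with the theorem of van der
Waerden.
-/

set_option autoImplicit false

namespace Fermat.Agent.Cor.Vdw

open Polynomial Filter Topology Fermat.Agent.Frob Fermat.Agent.Cor.Frob
open scoped Nat

local notation "Qbar" => AlgebraicClosure ℚ

/-- the reduction is separable modulo almost all primes -/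
theorem exists_bad {n : ℕ} {a : Fin n → ℤ} (hs : ((pol a).map (Int.castRingHom ℚ)).Separable) :
    ∃ D : ℕ, D ≠ 0 ∧ ∀ (p : ℕ) [Fact p.Prime], ¬ p ∣ D → (pol (red p a)).Separable := by
  have hm := Ded.monic_pol a
  rw [← Parity.discr_ne_zero_iff (hm.map _).ne_zero, Parity.discr_map_of_monic _ hm] at hs
  have h0 : (pol a).discr ≠ 0 := fun h => hs (by rw [h, map_zero])
  refine ⟨(pol a).discr.natAbs, Int.natAbs_ne_zero.mpr h0, fun p _ hp => ?_⟩
  have h1 : pol (red p a) = (pol a).map (Int.castRingHom (ZMod p)) := by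
    rw [Ded.map_pol]
    rfl
  rw [← Parity.discr_ne_zero_iff (Ded.monic_pol _).ne_zero, h1, Parity.discr_map_of_monic _ hm]
  intro h2
  apply hp
  rw [← Int.natCast_dvd]
  exact (ZMod.intCast_zmod_eq_zero_iff_dvd _ p).mp h2

/-- the kernel of the action on the roots is open -/
theorem isOpen_ker_rho {n : ℕ} {P : ℚ[X]} {α : Fin n → Qbar} (hP : P ≠ 0)
    (hα : Function.Injective α)
    (hroots : (P.map (algebraMap ℚ Qbar)).roots = Finset.univ.val.map α) :
    IsOpen ((Ded.rho hP hα hroots).ker : Set GQ) := by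
  have hfin : FiniteDimensional ℚ (IntermediateField.adjoin ℚ (Set.range α)) :=
    IntermediateField.finiteDimensional_adjoin fun x _ => Algebra.IsIntegral.isIntegral x
  have h1 : (IntermediateField.adjoin ℚ (Set.range α)).fixingSubgroup ≤
      (Ded.rho hP hα hroots).ker := by
    intro σ hσ
    rw [MonoidHom.mem_ker]
    ext i
    have h2 := Ded.rho_apply hP hα hroots σ i
    rw [(IntermediateField.mem_fixingSubgroup_iff _ σ).mp hσ (α i)
      (IntermediateField.subset_adjoin ℚ _ ⟨i, rfl⟩)] at h2
    rw [hα h2]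
    rfl
  exact Subgroup.isOpen_mono h1 (IntermediateField.fixingSubgroup_isOpen _)

/-- **The theorem of Frobenius for polynomials** (natural density). -/
theorem hasDensity_hasType {n : ℕ} {a : Fin n → ℤ}
    (hsep : ((pol a).map (Int.castRingHom ℚ)).Separable) :
    ∃ G : Subgroup (Equiv.Perm (Fin n)),
      Nat.card G = Nat.card ((pol a).map (Int.castRingHom ℚ)).Gal ∧
      ∀ Q : Multiset ℕ → Prop,
        HasDensity (fun p => ∃ (_ : Fact p.Prime) (m : Multiset ℕ), HasType m (red p a) ∧ Q m)
          ((Nat.card {g : G // Q (g : Equiv.Perm (Fin n)).partition.parts} : ℝ) / Nat.card G) := by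
  classical
  set P := (pol a).map (Int.castRingHom ℚ) with hP
  have hm : P.Monic := (Ded.monic_pol a).map _
  have hdeg : P.natDegree = n := natDegree_map_pol a
  have hmapP : P.map (algebraMap ℚ Qbar) = (pol a).map (algebraMap ℤ Qbar) := by
    rw [hP, Polynomial.map_map]
    congr 1
  have hcard : Multiset.card (P.map (algebraMap ℚ Qbar)).roots = n := by
    rw [← (IsAlgClosed.splits (P.map (algebraMap ℚ Qbar))).natDegree_eq_card_roots, natDegree_map,
      hdeg]
  obtain ⟨α, hroots⟩ := Ded.exists_fin_map _ hcard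
  have hα : Function.Injective α := by
    have h1 : (P.map (algebraMap ℚ Qbar)).roots.Nodup := nodup_roots hsep.map
    rw [hroots] at h1
    intro x y hxy
    exact Multiset.inj_on_of_nodup_map h1 x (Finset.mem_univ x) y (Finset.mem_univ y) hxy
  set ρ := Ded.rho hm.ne_zero hα hroots with hρ
  refine ⟨ρ.range, Ded.card_range_rho _ _ _, fun Q => ?_⟩
  have hex : ∀ p : ℕ, ∃ σ : GQ, p.Prime → ∃ A : ValuationSubring Qbar,
      A.LiesOverPrime p ∧ A.IsFrobeniusAt σ p := by
    intro p
    by_cases hp : p.Prime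
    · obtain ⟨A, hA, σ, hσ⟩ := exists_frobenius p hp
      exact ⟨σ, fun _ => ⟨A, hA, hσ⟩⟩
    · exact ⟨1, fun h => absurd h hp⟩
  choose fr hfr using hex
  obtain ⟨D, hD, h⟩ := exists_bad hsep
  have hker : IsOpen ((ρ.rangeRestrict.ker : Subgroup GQ) : Set GQ) := by
    rw [MonoidHom.ker_rangeRestrict]
    exact isOpen_ker_rho _ hα hroots
  have h1 := Frob.Final.frobenius_density hker ρ.rangeRestrict_surjective hfr
    (S := {s : ρ.range | Q (s : Equiv.Perm (Fin n)).partition.parts})
    (fun x g hg => by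
      have h2 : ((x⁻¹ * g * x : ρ.range) : Equiv.Perm (Fin n)).partition.parts =
          (g : Equiv.Perm (Fin n)).partition.parts := by
        congr 1
        refine (Equiv.Perm.partition_eq_of_isConj.mp ?_).symm
        rw [isConj_iff]
        exact ⟨(x : Equiv.Perm (Fin n))⁻¹, by simp⟩
      rw [Set.mem_ofPred_eq, h2]
      exact hg)
    (fun g g' hz hg => by
      have h2 : (g' : Equiv.Perm (Fin n)).partition.parts =
          (g : Equiv.Perm (Fin n)).partition.parts := by
        refine (Frob.parts_of_zpowers ?_).symm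
        have h3 := congrArg (Subgroup.map ρ.range.subtype) hz
        rwa [MonoidHom.map_zpowers, MonoidHom.map_zpowers] at h3
      rw [Set.mem_ofPred_eq, h2]
      exact hg)
  refine h1.congr hD fun p hp hpD => ?_
  obtain ⟨A, hA, hσ⟩ := hfr p hp
  have hfp : Fact p.Prime := ⟨hp⟩
  have hs := h p hpD
  have h2 := Ded.exists_reduction hs (α := α) (by rw [← hmapP, hroots]) hA hσ
    (Ded.rho_apply hm.ne_zero hα hroots (fr p))
  change Q (ρ (fr p)).partition.parts ↔ _
  rw [hρ, h2]
  constructor
  · intro hq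
    exact ⟨hfp, _, ⟨hs, rfl⟩, hq⟩
  · rintro ⟨_, m, ⟨_, rfl⟩, hq⟩
    exact hq

/-- the same for a full polynomial -/
theorem IsFull.hasDensity {n : ℕ} {a : Fin n → ℤ} (h : IsFull a) (Q : Multiset ℕ → Prop) :
    HasDensity (fun p => ∃ (_ : Fact p.Prime) (m : Multiset ℕ), HasType m (red p a) ∧ Q m)
      ((Nat.card {g : Equiv.Perm (Fin n) // Q g.partition.parts} : ℝ) / n !) := by
  obtain ⟨G, hG, hd⟩ := hasDensity_hasType h.1.separable
  have htop : G = ⊤ := by
    refine Subgroup.eq_top_of_card_eq _ ?_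
    rw [hG, h.2, Nat.card_perm, Nat.card_eq_fintype_card, Fintype.card_fin]
  subst htop
  have h1 := hd Q
  rw [hG, h.2] at h1
  have h2 : Nat.card {g : (⊤ : Subgroup (Equiv.Perm (Fin n))) //
      Q (g : Equiv.Perm (Fin n)).partition.parts} =
      Nat.card {g : Equiv.Perm (Fin n) // Q g.partition.parts} :=
    Nat.card_congr (Subgroup.topEquiv.toEquiv.subtypeEquiv fun g => Iff.rfl)
  rwa [h2] at h1

end Fermat.Agent.Cor.Vdw
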