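import Fermat.Agent.Corollaries.Vdw.Roots

/-!
# Almost all polynomials: the number of roots modulo `p`, the discriminant
-/

set_option autoImplicit false

namespace Fermat.Agent.Cor.Vdw

open Polynomial Filter Topology Fermat.Agent.Frob Fermat.Agent.Cor.Frob
open scoped Nat

theorem sum_map_ite {β : Type*} (P : β → Prop) [DecidablePred P] (s : Multiset β) :
    (s.map fun q => if P q then 1 else 0).sum = Multiset.card (s.filter P) := by
  induction s using Multiset.induction_on with
  | empty => simp
  | cons q s ih =>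
    by_cases h : P q
    · simp [h, ih, add_comm]
    · simp [h, ih]

section Field

variable {k : Type*} [Field k] {n : ℕ} {b : Fin n → k}

/-- the number of the factors of degree one is the number of roots -/
theorem HasType.count_one {m : Multiset ℕ} (h : HasType m b) :
    m.count 1 = Nat.card {x : k // x ^ n + ∑ i : Fin n, b i * x ^ (i : ℕ) = 0} := by
  classical
  obtain ⟨hsep, rfl⟩ := h
  set F := UniqueFactorizationMonoid.factors (pol b) with hF
  have h0 : pol b ≠ 0 := (Ded.monic_pol b).ne_zero
  have hirr : ∀ q ∈ F, Irreducible q := fun q hq =>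
    UniqueFactorizationMonoid.irreducible_of_factor q hq
  have hass : Associated F.prod (pol b) := UniqueFactorizationMonoid.factors_prod h0
  have hroots : (pol b).roots = F.prod.roots := by
    obtain ⟨u, hu⟩ := hass
    obtain ⟨c, hc, hcu⟩ := Polynomial.isUnit_iff.mp u.isUnit
    rw [← hu, ← hcu, mul_comm, roots_C_mul _ hc.ne_zero]
  have h1 : Nat.card {x : k // x ^ n + ∑ i : Fin n, b i * x ^ (i : ℕ) = 0} =
      (pol b).roots.toFinset.card := by
    refine Nat.subtype_card _ fun x => ?_
    rw [Multiset.mem_toFinset, mem_roots h0, IsRoot.def, eval_pol]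
  rw [h1, Multiset.toFinset_card_of_nodup (nodup_roots hsep), hroots,
    roots_multiset_prod _ fun h => (hirr _ h).ne_zero rfl, Multiset.card_bind]
  have h2 : F.map (Multiset.card ∘ roots) = F.map fun q => if 1 = q.natDegree then 1 else 0 := by
    refine Multiset.map_congr rfl fun q hq => ?_
    rw [Function.comp_apply]
    split_ifs with hd
    · rw [roots_degree_eq_one (by rw [degree_eq_natDegree (hirr q hq).ne_zero, ← hd]; rfl),
        Multiset.card_singleton]
    · rw [Multiset.card_eq_zero]
      refine Multiset.eq_zero_of_forall_notMem fun x hx => hd ?_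
      exact (natDegree_eq_of_degree_eq_some
        (degree_eq_one_of_irreducible_of_root (hirr q hq) (isRoot_of_mem_roots hx))).symm
  rw [h2, sum_map_ite, Multiset.count_map]

end Field

/-- the number of fixed points -/
theorem count_one_parts {n : ℕ} (g : Equiv.Perm (Fin n)) :
    g.partition.parts.count 1 = Nat.card {i : Fin n // g i = i} := by
  classical
  have h2 : 1 ∉ g.cycleType := fun h => absurd (Equiv.Perm.two_le_of_mem_cycleType h) (by omega)
  rw [Equiv.Perm.parts_partition, Multiset.count_add, Multiset.count_eq_zero_of_notMem h2,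
    Multiset.count_replicate_self, zero_add]
  have h3 : Nat.card {i : Fin n // g i = i} = (g.supportᶜ).card := by
    refine Nat.subtype_card _ fun i => ?_
    rw [Finset.mem_compl, Equiv.Perm.notMem_support]
  rw [h3, Finset.card_compl]

/-- **The number of roots modulo `p`**: a full polynomial has exactly `k` roots modulo `p` for as
many primes as there are permutations with exactly `k` fixed points. -/
theorem IsFull.density_card_roots {n : ℕ} {a : Fin n → ℤ} (h : IsFull a) (k : ℕ) :
    HasDensity (fun p => Nat.card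
        {x : ZMod p // x ^ n + ∑ i : Fin n, (a i : ZMod p) * x ^ (i : ℕ) = 0} = k)
      (Nat.card {g : Equiv.Perm (Fin n) // Nat.card {i : Fin n // g i = i} = k} / n !) := by
  have h1 := h.hasDensity fun m => m.count 1 = k
  have h4 : Nat.card {g : Equiv.Perm (Fin n) // g.partition.parts.count 1 = k} =
      Nat.card {g : Equiv.Perm (Fin n) // Nat.card {i : Fin n // g i = i} = k} :=
    Nat.card_congr (Equiv.subtypeEquivRight fun g => by rw [count_one_parts])
  rw [h4] at h1
  obtain ⟨D, hD, hs⟩ := exists_bad h.1.separable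
  refine h1.congr hD fun p hp hpD => ?_
  have hfp : Fact p.Prime := ⟨hp⟩
  have h3 : HasType _ (red p a) := ⟨hs p hpD, rfl⟩
  constructor
  · rintro ⟨_, m, hm, hq⟩
    exact hm.count_one.symm.trans hq
  · intro hi
    exact ⟨hfp, _, h3, h3.count_one.trans hi⟩

/-- **The discriminant of a full polynomial is not a square.** -/
theorem IsFull.not_isSquare_discr {n : ℕ} (hn : 2 ≤ n) {a : Fin n → ℤ} (h : IsFull a) :
    ¬ IsSquare (X ^ n + ∑ i : Fin n, C (a i) * X ^ (i : ℕ) : ℤ[X]).discr := by
  classical
  change ¬ IsSquare (pol a).discr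
  intro hsq
  -- odd permutations
  have h1 := h.hasDensity fun m => Odd (n - Multiset.card m)
  let i₀ : Fin n := ⟨0, by omega⟩
  let i₁ : Fin n := ⟨1, by omega⟩
  have hne : i₀ ≠ i₁ := by
    intro h
    have := congrArg Fin.val h
    simp [i₀, i₁] at this
  have hswap : Odd (n - Multiset.card (Equiv.swap i₀ i₁).partition.parts) := by
    rw [Equiv.Perm.parts_partition, Multiset.card_add, Multiset.card_replicate,
      Equiv.Perm.card_support_swap hne, Fintype.card_fin,
      (Equiv.Perm.isSwap_iff_cycleType.mp ⟨i₀, i₁, hne, rfl⟩ :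
        (Equiv.swap i₀ i₁).cycleType = {2}), Multiset.card_singleton]
    have : n - (1 + (n - 2)) = 1 := by omega
    rw [this]
    exact odd_one
  have hpos : (Nat.card {g : Equiv.Perm (Fin n) // Odd (n - Multiset.card g.partition.parts)} : ℝ) /
      n ! ≠ 0 := by
    have h2 : Nonempty {g : Equiv.Perm (Fin n) // Odd (n - Multiset.card g.partition.parts)} :=
      ⟨⟨_, hswap⟩⟩
    have h3 : 0 < Nat.card {g : Equiv.Perm (Fin n) // Odd (n - Multiset.card g.partition.parts)} :=
      Nat.card_pos
    have h4 : (n ! : ℝ) ≠ 0 := by exact_mod_cast (Nat.factorial_pos n).ne'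
    exact div_ne_zero (by exact_mod_cast h3.ne') h4
  have hinf := h1.infinite hpos
  obtain ⟨p, ⟨hp, hfp, m, hm, hodd⟩, hp2⟩ := hinf.exists_gt 2
  obtain ⟨hs, rfl⟩ := hm
  have h20 : (2 : ZMod p) ≠ 0 := by
    intro h
    have h3 : ((2 : ℕ) : ZMod p) = 0 := by exact_mod_cast h
    rw [ZMod.natCast_eq_zero_iff] at h3
    exact absurd (Nat.le_of_dvd two_pos h3) (by omega)
  have h5 := Parity.isSquare_discr_iff_even h20 hs
  rw [Ded.natDegree_pol] at h5
  rw [Multiset.card_map] at hodd
  apply Nat.not_even_iff_odd.mpr hodd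
  rw [← h5]
  have h6 : pol (red p a) = (pol a).map (Int.castRingHom (ZMod p)) := by
    rw [Ded.map_pol]
    rfl
  rw [h6, Parity.discr_map_of_monic _ (Ded.monic_pol a)]
  exact hsq.map (Int.castRingHom (ZMod p))

/-- **Almost all monic integral polynomials of degree `n ≥ 2`** have exactly `k` roots modulo `p`
for as many primes `p` as there are permutations with `k` fixed points (all `k` at the same time),
and their discriminant is not a square. -/
theorem tendsto_card_roots (n : ℕ) (hn : 2 ≤ n) :
    Tendsto (fun H : ℕ => (Nat.card {a : Fin n → ℤ // (∀ i, |a i| ≤ H) ∧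
      ¬ IsSquare (X ^ n + ∑ i : Fin n, C (a i) * X ^ (i : ℕ) : ℤ[X]).discr ∧
      ∀ k : ℕ, HasDensity (fun p => Nat.card
        {x : ZMod p // x ^ n + ∑ i : Fin n, (a i : ZMod p) * x ^ (i : ℕ) = 0} = k)
      (Nat.card {g : Equiv.Perm (Fin n) // Nat.card {i : Fin n // g i = i} = k} / n !)} : ℝ) /
      (2 * H + 1) ^ n) atTop (𝓝 1) := by
  have h := tendsto_of_isFull vdw (by omega) (n := n) (Q := fun a =>
      ¬ IsSquare (X ^ n + ∑ i : Fin n, C (a i) * X ^ (i : ℕ) : ℤ[X]).discr ∧
      ∀ k : ℕ, HasDensity (fun p => Nat.card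
        {x : ZMod p // x ^ n + ∑ i : Fin n, (a i : ZMod p) * x ^ (i : ℕ) = 0} = k)
      (Nat.card {g : Equiv.Perm (Fin n) // Nat.card {i : Fin n // g i = i} = k} / n !))
      fun a ha => ⟨ha.not_isSquare_discr hn, ha.density_card_roots⟩
  refine h.congr fun H => ?_
  rw [card_box_filter]

end Fermat.Agent.Cor.Vdw
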