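import Fermat.Agent.Corollaries.Vdw.Count
import Fermat.Agent.Corollaries.Vdw.Cor

/-!
# The theorem of van der Waerden: almost all integral polynomials have Galois group `S_n`
-/

set_option autoImplicit false

namespace Fermat.Agent.Cor.Vdw

open Polynomial Filter Topology
open scoped Nat

/-- **The theorem of van der Waerden** (1936). -/
theorem vdw : VdwStmt := vdwStmt_of Group.groupStmt Ded.dedStmt countStmt Box.boxStmt

attribute [local instance] fact_splits

open Classical in
theorem card_box_filter (n H : ℕ) (Q : (Fin n → ℤ) → Prop) :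
    Nat.card {a : Fin n → ℤ // (∀ i, |a i| ≤ H) ∧ Q a} = ((box n H).filter fun a => Q a).card := by
  refine Nat.subtype_card _ fun a => ?_
  rw [Finset.mem_filter, box, Fintype.mem_piFinset]
  simp only [Finset.mem_Icc, abs_le]

/-- **The theorem of van der Waerden**, spelled out: among the `(2H + 1) ^ n` monic polynomials
`X ^ n + a_{n-1} X ^ (n-1) + ... + a_0` with integral coefficients `|a_i| ≤ H` the proportion of
those which are irreducible over `ℚ` and whose Galois group acts on the complex roots by all `n!`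
permutations tends to `1`. -/
theorem van_der_waerden (n : ℕ) (hn : 0 < n) :
    Tendsto (fun H : ℕ => (Nat.card {a : Fin n → ℤ // (∀ i, |a i| ≤ H) ∧
      Irreducible (X ^ n + ∑ i : Fin n, C (a i : ℚ) * X ^ (i : ℕ) : ℚ[X]) ∧
      Function.Bijective (Gal.galActionHom
        (X ^ n + ∑ i : Fin n, C (a i : ℚ) * X ^ (i : ℕ) : ℚ[X]) ℂ)} : ℝ) /
      (2 * H + 1) ^ n) atTop (𝓝 1) := by
  have h := tendsto_of_isFull vdw hn (Q := fun a =>
      Irreducible (X ^ n + ∑ i : Fin n, C (a i : ℚ) * X ^ (i : ℕ) : ℚ[X]) ∧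
      Function.Bijective (Gal.galActionHom
        (X ^ n + ∑ i : Fin n, C (a i : ℚ) * X ^ (i : ℕ) : ℚ[X]) ℂ)) fun a ha => by
    have h1 : (X ^ n + ∑ i : Fin n, C (a i : ℚ) * X ^ (i : ℕ) : ℚ[X]) =
        (pol a).map (Int.castRingHom ℚ) := (Ded.map_pol (Int.castRingHom ℚ) a).symm
    rw [h1]
    exact ⟨ha.1, ha.bijective⟩
  refine h.congr fun H => ?_
  rw [card_box_filter]

/-- **Almost no polynomial of degree `n ≥ 5` has a root which is expressible by radicals.** -/
theorem tendsto_solvableByRad (n : ℕ) (hn : 5 ≤ n) :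
    Tendsto (fun H : ℕ => (Nat.card {a : Fin n → ℤ // (∀ i, |a i| ≤ H) ∧
      ∃ x ∈ solvableByRad ℚ ℂ, x ^ n + ∑ i : Fin n, (a i : ℂ) * x ^ (i : ℕ) = 0} : ℝ) /
      (2 * H + 1) ^ n) atTop (𝓝 0) := by
  have h := tendsto_not_of_isFull vdw (by omega) (n := n) (Q := fun a =>
      ∃ x ∈ solvableByRad ℚ ℂ, x ^ n + ∑ i : Fin n, (a i : ℂ) * x ^ (i : ℕ) = 0) fun a ha => by
    rintro ⟨x, hx, h⟩
    refine ha.notMem_solvableByRad hn (x := x) ?_ hx
    rw [Ded.map_pol, pol, map_add, map_pow, aeval_X, map_sum]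
    rw [← h]
    congr 1
    refine Finset.sum_congr rfl fun i _ => ?_
    rw [map_mul, aeval_C, map_pow, aeval_X]
    simp
  refine h.congr fun H => ?_
  rw [card_box_filter]

/-- For every `n ≥ 1` there is an irreducible monic integral polynomial of degree `n` whose Galois
group is the full symmetric group. -/
theorem exists_isFull (n : ℕ) (hn : 0 < n) : ∃ a : Fin n → ℤ, IsFull a := by
  classical
  have h1 := (vdw n hn).eventually (lt_mem_nhds (show (0 : ℝ) < 1 from one_pos))
  obtain ⟨H, hH⟩ := h1.exists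
  by_contra hcon
  push Not at hcon
  have h2 : (box n H).filter (fun a => IsFull a) = ∅ :=
    Finset.filter_eq_empty_iff.mpr fun a _ => hcon a
  have h3 : (0 : ℝ) < (((box n H).filter fun a => IsFull a).card : ℝ) / (box n H).card := by
    convert hH
  rw [h2, Finset.card_empty, Nat.cast_zero, zero_div] at h3
  exact lt_irrefl 0 h3

end Fermat.Agent.Cor.Vdw
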