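import Fermat.Agent.Corollaries.Vdw.Disc

/-!
# The number of permutations with exactly `k` fixed points
-/

set_option autoImplicit false

namespace Fermat.Agent.Cor.Vdw

open Polynomial Filter Topology Fermat.Agent.Frob Fermat.Agent.Cor.Frob
open scoped Nat

/-- the permutations whose fixed points are the elements of `S` -/
theorem card_fixed_eq {n : ℕ} (S : Finset (Fin n)) :
    Nat.card {g : Equiv.Perm (Fin n) // ∀ i, g i = i ↔ i ∈ S} = numDerangements (n - S.card) := by
  classical
  have e := (derangements.subtypeEquiv fun i : Fin n => i ∉ S)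
  have h1 : Nat.card {g : Equiv.Perm (Fin n) // ∀ i, g i = i ↔ i ∈ S} =
      Nat.card (derangements {i : Fin n // i ∉ S}) := by
    refine Nat.card_congr (Equiv.trans (Equiv.subtypeEquivRight fun g => ?_) e.symm)
    refine forall_congr' fun i => ?_
    rw [Classical.not_not, Function.mem_fixedPoints, Function.IsFixedPt]
    exact Iff.comm
  rw [h1, Nat.card_eq_fintype_card]
  refine (card_derangements_eq_numDerangements {i : Fin n // i ∉ S}).trans ?_
  rw [Fintype.card_subtype_compl, Fintype.card_fin, Fintype.card_coe]

/-- **The number of permutations with exactly `k` fixed points.** -/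
theorem card_fixed (n k : ℕ) :
    Nat.card {g : Equiv.Perm (Fin n) // Nat.card {i : Fin n // g i = i} = k} =
      n.choose k * numDerangements (n - k) := by
  classical
  rw [Nat.card_eq_fintype_card, Fintype.card_subtype,
    Finset.card_eq_sum_card_fiberwise (f := fun g : Equiv.Perm (Fin n) =>
      Finset.univ.filter fun i => g i = i) (t := Finset.powersetCard k Finset.univ)]
  · have h : ∀ S ∈ Finset.powersetCard k (Finset.univ : Finset (Fin n)),
        ((Finset.univ.filter fun g : Equiv.Perm (Fin n) =>
          Nat.card {i : Fin n // g i = i} = k).filter fun g =>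
            (Finset.univ.filter fun i => g i = i) = S).card = numDerangements (n - k) := by
      intro S hS
      rw [Finset.mem_powersetCard] at hS
      rw [← hS.2, ← card_fixed_eq S]
      symm
      refine Nat.subtype_card _ fun g => ?_
      rw [Finset.mem_filter, Finset.mem_filter]
      constructor
      · rintro ⟨-, h⟩ i
        rw [← h, Finset.mem_filter]
        exact ⟨fun h => ⟨Finset.mem_univ i, h⟩, fun h => h.2⟩
      · intro h
        have h2 : (Finset.univ.filter fun i => g i = i) = S := by
          ext i
          rw [Finset.mem_filter, h i]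
          exact ⟨fun h => h.2, fun h => ⟨Finset.mem_univ i, h⟩⟩
        refine ⟨⟨Finset.mem_univ g, ?_⟩, h2⟩
        rw [← h2]
        exact Nat.subtype_card _ fun i => by
          rw [Finset.mem_filter]
          exact ⟨fun h => h.2, fun h => ⟨Finset.mem_univ i, h⟩⟩
    rw [Finset.sum_congr rfl h, Finset.sum_const, Finset.card_powersetCard, Finset.card_univ,
      Fintype.card_fin, smul_eq_mul]
  · intro g hg
    rw [Finset.mem_coe, Finset.mem_filter] at hg
    rw [Finset.mem_coe, Finset.mem_powersetCard]
    refine ⟨Finset.subset_univ _, ?_⟩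
    rw [← hg.2]
    symm
    exact Nat.subtype_card _ fun i => by
      rw [Finset.mem_filter]
      exact ⟨fun h => h.2, fun h => ⟨Finset.mem_univ i, h⟩⟩

/-- **A full polynomial has exactly `k` roots modulo `p`** for the proportion `D_(n-k) / (k! (n-k)!)`
of the primes. -/
theorem IsFull.density_card_roots' {n : ℕ} {a : Fin n → ℤ} (h : IsFull a) {k : ℕ} (hk : k ≤ n) :
    HasDensity (fun p => Nat.card
        {x : ZMod p // x ^ n + ∑ i : Fin n, (a i : ZMod p) * x ^ (i : ℕ) = 0} = k)
      (numDerangements (n - k) / (k ! * (n - k)!)) := by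
  have h1 := h.density_card_roots k
  rw [card_fixed] at h1
  have h2 : ((n.choose k * numDerangements (n - k) : ℕ) : ℝ) / n ! =
      numDerangements (n - k) / (k ! * (n - k)!) := by
    have h3 : ((n.choose k : ℕ) : ℝ) * k ! * (n - k)! = n ! := by
      exact_mod_cast Nat.choose_mul_factorial_mul_factorial hk
    have h4 : (k ! : ℝ) ≠ 0 := by exact_mod_cast (Nat.factorial_pos k).ne'
    have h5 : ((n - k)! : ℝ) ≠ 0 := by exact_mod_cast (Nat.factorial_pos (n - k)).ne'
    have h6 : (n ! : ℝ) ≠ 0 := by exact_mod_cast (Nat.factorial_pos n).ne'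
    rw [div_eq_div_iff h6 (mul_ne_zero h4 h5), ← h3]
    push_cast
    ring
  rwa [h2] at h1

/-- **For almost all monic integral polynomials of degree `n`**, all `k ≤ n`: there are exactly `k`
roots modulo `p` for the proportion `D_(n-k) / (k! (n-k)!)` of the primes. -/
theorem tendsto_card_roots' (n : ℕ) (hn : 0 < n) :
    Tendsto (fun H : ℕ => (Nat.card {a : Fin n → ℤ // (∀ i, |a i| ≤ H) ∧
      ∀ k ≤ n, HasDensity (fun p => Nat.card
        {x : ZMod p // x ^ n + ∑ i : Fin n, (a i : ZMod p) * x ^ (i : ℕ) = 0} = k)
      (numDerangements (n - k) / (k ! * (n - k)!))} : ℝ) / (2 * H + 1) ^ n) atTop (𝓝 1) := by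
  have h := tendsto_of_isFull vdw hn (Q := fun a =>
      ∀ k ≤ n, HasDensity (fun p => Nat.card
        {x : ZMod p // x ^ n + ∑ i : Fin n, (a i : ZMod p) * x ^ (i : ℕ) = 0} = k)
      (numDerangements (n - k) / (k ! * (n - k)!))) fun a ha k hk => ha.density_card_roots' hk
  refine h.congr fun H => ?_
  rw [card_box_filter]

end Fermat.Agent.Cor.Vdw
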