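import Fermat.Agent.Corollaries.Vdw.Defs

/-!
# Generating the symmetric group

A subgroup of `S_n` (`n ≥ 3`) which contains an `n`-cycle, an `(n - 1)`-cycle and a transposition is
`S_n`.
-/

set_option autoImplicit false

namespace Fermat.Agent.Cor.Vdw.Group

open Equiv Equiv.Perm Fermat.Agent.Cor.Vdw

variable {n : ℕ}

/-- a permutation with the only part `n` is an `n`-cycle -/
theorem cycleType_eq (hn : 2 ≤ n) {g : Perm (Fin n)} (h : g.partition.parts = {n}) :
    g.cycleType = {n} := by
  rw [parts_partition] at h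
  have h1 : Multiset.card (g.cycleType + Multiset.replicate (Fintype.card (Fin n) -
      g.support.card) 1) = 1 := by rw [h, Multiset.card_singleton]
  rw [Multiset.card_add, Multiset.card_replicate] at h1
  rcases Nat.eq_zero_or_pos (Fintype.card (Fin n) - g.support.card) with h2 | h2
  · rw [h2, Multiset.replicate_zero, add_zero] at h
    exact h
  · have h3 : (1 : ℕ) ∈ g.cycleType + Multiset.replicate (Fintype.card (Fin n) -
        g.support.card) 1 := by
      rw [Multiset.mem_add]
      exact Or.inr (Multiset.mem_replicate.mpr ⟨h2.ne', rfl⟩)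
    rw [h, Multiset.mem_singleton] at h3
    omega

theorem groupStmt : GroupStmt := by
  classical
  intro n hn G ⟨g₁, hg₁, h₁⟩ ⟨g₂, hg₂, h₂⟩ ⟨g₃, hg₃, h₃⟩
  -- `g₁` is an `n`-cycle
  have hc1 : g₁.IsCycle := by
    rw [← card_cycleType_eq_one, cycleType_eq (by omega) h₁, Multiset.card_singleton]
  have hs1 : g₁.support = Finset.univ := by
    rw [← Finset.card_eq_iff_eq_univ, Fintype.card_fin, ← sum_cycleType,
      cycleType_eq (by omega) h₁, Multiset.sum_singleton]
  have htrans : ∀ x y : Fin n, ∃ g ∈ G, g x = y := by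
    intro x y
    have hx : g₁ x ≠ x := by
      rw [← mem_support, hs1]
      exact Finset.mem_univ x
    have hy : g₁ y ≠ y := by
      rw [← mem_support, hs1]
      exact Finset.mem_univ y
    obtain ⟨i, hi⟩ := hc1.exists_zpow_eq hx hy
    exact ⟨g₁ ^ i, Subgroup.zpow_mem _ hg₁ i, hi⟩
  -- `g₃` is a swap
  have hc3 : g₃.IsSwap := by
    rw [← card_support_eq_two, ← sum_cycleType]
    rw [parts_partition] at h₃
    have h4 : ∀ s t : Multiset ℕ, (∀ x ∈ s, 2 ≤ x) → (∀ x ∈ t, x = 1) →
        s + t = 2 ::ₘ Multiset.replicate (n - 2) 1 → s = {2} := by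
      intro s t hs ht hst
      have h5 := congrArg (Multiset.filter (2 ≤ ·)) hst
      rw [Multiset.filter_add, Multiset.filter_eq_self.mpr hs,
        Multiset.filter_eq_nil.mpr (fun x hx => by rw [ht x hx]; norm_num), add_zero,
        Multiset.filter_cons_of_pos _ le_rfl, Multiset.filter_eq_nil.mpr (fun x hx => by
          rw [Multiset.eq_of_mem_replicate hx]; norm_num)] at h5
      exact h5
    rw [h4 _ _ (fun x hx => two_le_of_mem_cycleType hx)
      (fun x hx => Multiset.eq_of_mem_replicate hx) h₃, Multiset.sum_singleton]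
  -- `g₂` is an `(n-1)`-cycle
  have hct2 : g₂.cycleType = {n - 1} := by
    rw [parts_partition] at h₂
    have h5 := congrArg (Multiset.filter (2 ≤ ·)) h₂
    rw [Multiset.filter_add, Multiset.filter_eq_self.mpr
      (fun x hx => two_le_of_mem_cycleType hx), Multiset.filter_eq_nil.mpr (fun x hx => by
        rw [Multiset.eq_of_mem_replicate hx]; norm_num), add_zero] at h5
    rw [h5]
    change Multiset.filter (2 ≤ ·) ((n - 1) ::ₘ 1 ::ₘ 0) = {n - 1}
    rw [Multiset.filter_cons_of_pos _ (by omega), Multiset.filter_cons_of_neg _ (by omega),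
      Multiset.filter_zero]
    rfl
  have hc2 : g₂.IsCycle := by
    rw [← card_cycleType_eq_one, hct2, Multiset.card_singleton]
  have hs2 : g₂.support.card = n - 1 := by
    rw [← sum_cycleType, hct2, Multiset.sum_singleton]
  obtain ⟨x, hx⟩ : ∃ x, g₂.supportᶜ = {x} := by
    rw [← Finset.card_eq_one, Finset.card_compl, hs2, Fintype.card_fin]
    omega
  have hx' : ∀ y, y ≠ x → g₂ y ≠ y := by
    intro y hy hyy
    have h6 : y ∈ g₂.supportᶜ := by
      rw [Finset.mem_compl, mem_support]
      exact fun h => h hyy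
    rw [hx, Finset.mem_singleton] at h6
    exact hy h6
  have hxx : g₂ x = x := by
    have h6 : x ∈ g₂.supportᶜ := by rw [hx]; exact Finset.mem_singleton_self x
    rw [Finset.mem_compl, mem_support, not_not] at h6
    exact h6
  -- all swaps `(x y)`
  obtain ⟨a, b, hab, rfl⟩ := hc3
  obtain ⟨g, hg, hga⟩ := htrans a x
  have hconj : ∀ (h : Perm (Fin n)) (u v : Fin n), h ∈ G → swap u v ∈ G →
      swap (h u) (h v) ∈ G := by
    intro h u v hh huv
    have h6 : h * swap u v * h⁻¹ ∈ G := G.mul_mem (G.mul_mem hh huv) (G.inv_mem hh)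
    rwa [← swap_apply_apply] at h6
  have hxb : swap x (g b) ∈ G := by
    have := hconj g a b hg hg₃
    rwa [hga] at this
  have hgb : g b ≠ x := by
    rw [← hga]
    exact fun h => hab (g.injective h).symm
  have hall : ∀ y, y ≠ x → swap x y ∈ G := by
    intro y hy
    obtain ⟨i, hi⟩ := hc2.exists_zpow_eq (hx' _ hgb) (hx' y hy)
    have h6 := hconj (g₂ ^ i) x (g b) (Subgroup.zpow_mem _ hg₂ i) hxb
    rw [hi, zpow_apply_eq_self_of_apply_eq_self hxx i] at h6
    exact h6
  -- conclusion
  set S : Set (Perm (Fin n)) := {s | s.IsSwap ∧ s ∈ G} with hS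
  have hle : Subgroup.closure S ≤ G := by
    rw [Subgroup.closure_le]
    exact fun s hs => hs.2
  have hmemS : ∀ y, y ≠ x → swap x y ∈ Subgroup.closure S := fun y hy =>
    Subgroup.subset_closure ⟨⟨x, y, hy.symm, rfl⟩, hall y hy⟩
  have hpre : MulAction.IsPretransitive (Subgroup.closure S) (Fin n) := by
    have h7 : ∀ y, ∃ s : Subgroup.closure S, s • x = y := by
      intro y
      rcases eq_or_ne y x with rfl | hy
      · exact ⟨1, one_smul _ _⟩
      · exact ⟨⟨swap x y, hmemS y hy⟩, swap_apply_left x y⟩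
    refine ⟨fun u v => ?_⟩
    obtain ⟨s, hs⟩ := h7 u
    obtain ⟨t, ht⟩ := h7 v
    exact ⟨t * s⁻¹, by rw [mul_smul, ← hs, inv_smul_smul, ht]⟩
  have htop : Subgroup.closure S = ⊤ :=
    closure_of_isSwap_of_isPretransitive (fun s hs => hs.1)
  rw [htop] at hle
  exact top_le_iff.mp hle

end Fermat.Agent.Cor.Vdw.Group
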