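import Fermat.Agent.Corollaries.Vdw.Defs

/-!
# The number of monic irreducible polynomials over `𝔽_p`
-/

set_option autoImplicit false

open Polynomial

namespace Fermat.Agent.Cor.Vdw

namespace Irr

theorem natDegree_pol {R : Type*} [CommRing R] [Nontrivial R] {n : ℕ} (a : Fin n → R) :
    (pol a).natDegree = n ∧ (pol a).Monic := by
  have h : (∑ i : Fin n, C (a i) * X ^ (i : ℕ) : R[X]).degree < n := by
    rw [← mem_degreeLT]
    refine Submodule.sum_mem _ fun i _ => ?_
    rw [mem_degreeLT]
    refine (degree_C_mul_X_pow_le _ _).trans_lt ?_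
    exact_mod_cast i.2
  refine ⟨?_, monic_X_pow_add h⟩
  rw [pol, natDegree_add_eq_left_of_degree_lt, natDegree_X_pow]
  rwa [degree_X_pow]

theorem pol_coeff {R : Type*} [CommRing R] {f : R[X]} {n : ℕ} (hf : f.Monic)
    (hn : f.natDegree = n) : pol (fun i : Fin n => f.coeff i) = f := by
  subst hn
  rw [pol, Fin.sum_univ_eq_sum_range (fun i => C (f.coeff i) * X ^ i)]
  exact hf.as_sum.symm

theorem sum_pow_le {p : ℕ} (hp : 3 ≤ p) (d : ℕ) : 2 * ∑ e ∈ Finset.range d, p ^ e ≤ p ^ d := by
  induction d with
  | zero => simp
  | succ d ih =>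
    rw [Finset.sum_range_succ, mul_add, pow_succ]
    have h1 : p ^ d * 3 ≤ p ^ d * p := Nat.mul_le_mul_left _ hp
    omega

end Irr

open Irr

/-- (N) -/
theorem irrStmt : IrrStmt := by
  classical
  intro d hd p hp hp3
  let F := GaloisField p d
  let _ : Fintype F := Fintype.ofFinite F
  have hcardF : Fintype.card F = p ^ d := by
    rw [← Nat.card_eq_fintype_card]
    exact GaloisField.card p d hd.ne'
  have hint : ∀ x : F, IsIntegral (ZMod p) x := fun x => Algebra.IsIntegral.isIntegral x
  -- elements of lower degree
  have hpow : ∀ x : F, x ^ p ^ (minpoly (ZMod p) x).natDegree = x := by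
    intro x
    let K' := IntermediateField.adjoin (ZMod p) {x}
    let _ : Fintype K' := Fintype.ofFinite K'
    have h1 : Fintype.card K' = p ^ (minpoly (ZMod p) x).natDegree := by
      rw [Module.card_eq_pow_finrank (K := ZMod p) (V := K'), ZMod.card,
        IntermediateField.adjoin.finrank (hint x)]
    have h2 := FiniteField.pow_card (⟨x, IntermediateField.mem_adjoin_simple_self _ x⟩ : K')
    rw [h1] at h2
    exact congrArg Subtype.val h2
  have hdeg : ∀ x : F, (minpoly (ZMod p) x).natDegree ≤ d := by
    intro x
    have h1 : Module.finrank (ZMod p) F = d := GaloisField.finrank p hd.ne'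
    have h2 : (minpoly (ZMod p) x).natDegree ≤ Module.finrank (ZMod p) F := minpoly.natDegree_le x
    rwa [h1] at h2
  set B : Finset F := Finset.univ.filter fun x => (minpoly (ZMod p) x).natDegree < d with hB
  set A : Finset F := Finset.univ.filter fun x => (minpoly (ZMod p) x).natDegree = d with hA
  have hBcard : B.card ≤ ∑ e ∈ Finset.range d, p ^ e := by
    have h1 : B ⊆ (Finset.Ico 1 d).biUnion fun e => (X ^ p ^ e - X : F[X]).roots.toFinset := by
      intro x hx
      have hx' := (Finset.mem_filter.mp hx).2
      have h2 := minpoly.natDegree_pos (hint x)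
      rw [Finset.mem_biUnion]
      refine ⟨(minpoly (ZMod p) x).natDegree, Finset.mem_Ico.mpr ⟨h2, hx'⟩, ?_⟩
      rw [Multiset.mem_toFinset, mem_roots (FiniteField.X_pow_card_pow_sub_X_ne_zero F h2.ne'
        hp.out.one_lt), IsRoot, eval_sub, eval_pow, eval_X, hpow, sub_self]
    refine (Finset.card_le_card h1).trans (Finset.card_biUnion_le.trans ?_)
    refine (Finset.sum_le_sum fun e he => ?_).trans
      (Finset.sum_le_sum_of_subset (s := Finset.Ico 1 d) (t := Finset.range d)
        (f := fun e => p ^ e) fun e he => ?_)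
    · refine (Multiset.toFinset_card_le _).trans ((card_roots' _).trans ?_)
      rw [FiniteField.X_pow_card_pow_sub_X_natDegree_eq F
        (Nat.one_le_iff_ne_zero.mp (Finset.mem_Ico.mp he).1) hp.out.one_lt]
    · exact Finset.mem_range.mpr (Finset.mem_Ico.mp he).2
  have hAB : A.card + B.card = p ^ d := by
    rw [← hcardF, ← Finset.card_univ, ← Finset.card_union_of_disjoint]
    · congr 1
      ext x
      rw [Finset.mem_union, hA, hB, Finset.mem_filter, Finset.mem_filter]
      have := hdeg x
      simp only [Finset.mem_univ, true_and, iff_true]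
      omega
    · rw [Finset.disjoint_filter]
      intro x _ h1 h2
      omega
  -- the fibres of the minimal polynomial
  set φ : F → (Fin d → ZMod p) := fun x i => (minpoly (ZMod p) x).coeff i with hφ
  have hpol : ∀ x ∈ A, pol (φ x) = minpoly (ZMod p) x := by
    intro x hx
    have h1 : (minpoly (ZMod p) x).natDegree = d := (Finset.mem_filter.mp hx).2
    exact pol_coeff (minpoly.monic (hint x)) h1
  have hfib : ∀ a ∈ A.image φ, (A.filter fun x => φ x = a).card ≤ d := by
    intro a _
    have h1 : (A.filter fun x => φ x = a) ⊆ ((pol a).map (algebraMap (ZMod p) F)).roots.toFinset := by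
      intro x hx
      obtain ⟨hxA, hxa⟩ := Finset.mem_filter.mp hx
      rw [Multiset.mem_toFinset, mem_roots (((natDegree_pol a).2.map _).ne_zero), IsRoot,
        eval_map_algebraMap, ← hxa, hpol x hxA, minpoly.aeval]
    refine (Finset.card_le_card h1).trans ((Multiset.toFinset_card_le _).trans
      ((card_roots' _).trans ?_))
    rw [(natDegree_pol a).2.natDegree_map, (natDegree_pol a).1]
  have hcount := Finset.card_le_mul_card_image A d hfib
  have himg : (A.image φ).card ≤ Nat.card {a : Fin d → ZMod p // Irreducible (pol a)} := by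
    rw [Nat.card_eq_fintype_card, Fintype.card_subtype]
    refine Finset.card_le_card fun a ha => ?_
    obtain ⟨x, hx, rfl⟩ := Finset.mem_image.mp ha
    rw [Finset.mem_filter]
    refine ⟨Finset.mem_univ _, ?_⟩
    rw [hpol x hx]
    exact minpoly.irreducible (hint x)
  have h3 := sum_pow_le hp3 d
  have h4 : A.card ≤ d * Nat.card {a : Fin d → ZMod p // Irreducible (pol a)} :=
    hcount.trans (Nat.mul_le_mul_left d himg)
  have h5 : 2 * d * Nat.card {a : Fin d → ZMod p // Irreducible (pol a)} =
      2 * (d * Nat.card {a : Fin d → ZMod p // Irreducible (pol a)}) := by ring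
  rw [h5]
  omega

end Fermat.Agent.Cor.Vdw
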