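import Fermat.Agent.Corollaries.Vdw.Ded
import Fermat.Agent.Corollaries.Vdw.Group
import Fermat.Agent.Corollaries.Vdw.Box
import Fermat.Agent.Corollaries.Parity.Finite

/-!
# Almost all integral polynomials have Galois group `S_n`: assembly
-/

set_option autoImplicit false

namespace Fermat.Agent.Cor.Vdw

open Polynomial Filter Topology
open scoped Nat

/-- separable modulo `p` implies separable -/
theorem separable_of_red {n : ℕ} {a : Fin n → ℤ} {p : ℕ} [Fact p.Prime]
    (h : (pol (red p a)).Separable) : ((pol a).map (Int.castRingHom ℚ)).Separable := by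
  have hm := Ded.monic_pol a
  have h1 : pol (red p a) = (pol a).map (Int.castRingHom (ZMod p)) := by
    rw [Ded.map_pol]
    rfl
  rw [← Parity.discr_ne_zero_iff (hm.map _).ne_zero, Parity.discr_map_of_monic _ hm]
  rw [← Parity.discr_ne_zero_iff (Ded.monic_pol _).ne_zero, h1,
    Parity.discr_map_of_monic _ hm] at h
  intro h2
  apply h
  have h3 : (pol a).discr = 0 := by
    have h4 : (((pol a).discr : ℤ) : ℚ) = 0 := h2
    exact_mod_cast h4
  rw [h3, map_zero]

theorem top_of (hG : GroupStmt) {n : ℕ} (hn : 0 < n) {G : Subgroup (Equiv.Perm (Fin n))}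
    (h₁ : ∃ g ∈ G, g.partition.parts = {n})
    (h₂ : 3 ≤ n → ∃ g ∈ G, g.partition.parts = {n - 1, 1})
    (h₃ : 3 ≤ n → ∃ g ∈ G, g.partition.parts = 2 ::ₘ Multiset.replicate (n - 2) 1) : G = ⊤ := by
  rcases Nat.lt_or_ge n 3 with h3 | h3
  · rw [Subgroup.eq_top_iff']
    have h4 : n = 1 ∨ n = 2 := by omega
    rcases h4 with rfl | rfl
    · intro x
      rw [Subsingleton.elim x 1]
      exact G.one_mem
    · obtain ⟨g, hg, hg'⟩ := h₁
      have hg1 : g ≠ 1 := by
        rintro rfl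
        have h5 := Group.cycleType_eq le_rfl hg'
        rw [Equiv.Perm.cycleType_one] at h5
        exact absurd h5.symm (Multiset.singleton_ne_zero 2)
      intro x
      have h6 : ∀ u v : Equiv.Perm (Fin 2), u ≠ 1 → v = 1 ∨ v = u := by decide
      rcases h6 g x hg1 with rfl | rfl
      · exact G.one_mem
      · exact hg
  · exact hG n h3 G h₁ (h₂ h3) (h₃ h3)

/-- Three primes suffice. -/
theorem isFull_of (hG : GroupStmt) (hD : DedStmt) {n : ℕ} (hn : 0 < n) {a : Fin n → ℤ}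
    (h₁ : ∃ (p : ℕ) (_ : Fact p.Prime), HasType {n} (red p a))
    (h₂ : 3 ≤ n → ∃ (p : ℕ) (_ : Fact p.Prime), HasType {n - 1, 1} (red p a))
    (h₃ : 3 ≤ n → ∃ (p : ℕ) (_ : Fact p.Prime),
      HasType (2 ::ₘ Multiset.replicate (n - 2) 1) (red p a)) : IsFull a := by
  obtain ⟨p, hp, hpT⟩ := h₁
  obtain ⟨G, hG1, hG2, hG3⟩ := hD n a hn (separable_of_red hpT.1)
  have htop : G = ⊤ := top_of hG hn (hG1 p _ hpT)
    (fun h => by obtain ⟨q, hq, hqT⟩ := h₂ h; exact hG1 q _ hqT)
    (fun h => by obtain ⟨q, hq, hqT⟩ := h₃ h; exact hG1 q _ hqT)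
  subst htop
  refine ⟨hG3 ⟨fun x y => ⟨⟨Equiv.swap x y, Subgroup.mem_top _⟩, Equiv.swap_apply_left x y⟩⟩, ?_⟩
  rw [← hG2, Subgroup.card_top, Nat.card_perm, Nat.card_eq_fintype_card, Fintype.card_fin]

theorem card_box (n H : ℕ) : (box n H).card = (2 * H + 1) ^ n := by
  rw [box, Fintype.card_piFinset, Finset.prod_const, Finset.card_univ, Fintype.card_fin,
    Int.card_Icc]
  congr 1
  omega

open Classical in
theorem vdwStmt_of (hG : GroupStmt) (hD : DedStmt) (hC : CountStmt) (hB : BoxStmt) : VdwStmt := by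
  intro n hn
  -- the sieve for one type
  let bad : Multiset ℕ → ℕ → ℕ → ℝ := fun m p₀ H =>
    (((box n H).filter fun a => ∀ (p : ℕ) [Fact p.Prime], p₀ ≤ p →
      ¬ HasType m (red p a)).card : ℝ) / (2 * H + 1) ^ n
  have hbad : ∀ m : Multiset ℕ,
      (m = {n} ∨ (3 ≤ n ∧ (m = {n - 1, 1} ∨ m = 2 ::ₘ Multiset.replicate (n - 2) 1))) →
      ∃ p₀, Tendsto (bad m p₀) atTop (𝓝 0) := by
    intro m hm
    obtain ⟨c, hc, p₀, h⟩ := hC n hn m hm
    exact ⟨p₀, hB n hn (fun p _ a => HasType m a) c p₀ hc h⟩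
  obtain ⟨p₁, hp₁⟩ := hbad {n} (Or.inl rfl)
  have h23 : ∃ (q₂ q₃ : ℕ) (b₂ b₃ : ℕ → ℝ), Tendsto b₂ atTop (𝓝 0) ∧ Tendsto b₃ atTop (𝓝 0) ∧
      (∀ H, 0 ≤ b₂ H) ∧ (∀ H, 0 ≤ b₃ H) ∧
      (3 ≤ n → b₂ = bad {n - 1, 1} q₂ ∧ b₃ = bad (2 ::ₘ Multiset.replicate (n - 2) 1) q₃) := by
    rcases Nat.lt_or_ge n 3 with h3 | h3
    · exact ⟨0, 0, fun _ => 0, fun _ => 0, tendsto_const_nhds, tendsto_const_nhds,
        fun _ => le_rfl, fun _ => le_rfl, fun h => absurd h (by omega)⟩
    · obtain ⟨q₂, hq₂⟩ := hbad {n - 1, 1} (Or.inr ⟨h3, Or.inl rfl⟩)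
      obtain ⟨q₃, hq₃⟩ := hbad (2 ::ₘ Multiset.replicate (n - 2) 1) (Or.inr ⟨h3, Or.inr rfl⟩)
      exact ⟨q₂, q₃, _, _, hq₂, hq₃, fun H => by positivity, fun H => by positivity,
        fun _ => ⟨rfl, rfl⟩⟩
  obtain ⟨q₂, q₃, b₂, b₃, hb₂, hb₃, h0₂, h0₃, hbb⟩ := h23
  have hsum : Tendsto (fun H => 1 - (bad {n} p₁ H + b₂ H + b₃ H)) atTop (𝓝 (1 - (0 + 0 + 0))) :=
    tendsto_const_nhds.sub ((hp₁.add hb₂).add hb₃)
  rw [add_zero, add_zero, sub_zero] at hsum
  refine tendsto_of_tendsto_of_tendsto_of_le_of_le hsum tendsto_const_nhds (fun H => ?_)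
    (fun H => ?_)
  · -- lower bound
    have hN : (0 : ℝ) < (2 * H + 1) ^ n := by positivity
    have hcard : ((box n H).card : ℝ) = (2 * H + 1) ^ n := by
      rw [card_box]
      push_cast
      rfl
    change 1 - (bad {n} p₁ H + b₂ H + b₃ H) ≤
      (((box n H).filter fun a => IsFull a).card : ℝ) / (box n H).card
    rw [hcard, le_div_iff₀ hN]
    set B₁ := (box n H).filter fun a => ∀ (p : ℕ) [Fact p.Prime], p₁ ≤ p →
      ¬ HasType {n} (red p a) with hB₁
    set F := (box n H).filter fun a => IsFull a with hF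
    have e1 : bad {n} p₁ H * (2 * H + 1) ^ n = B₁.card := div_mul_cancel₀ _ hN.ne'
    rcases Nat.lt_or_ge n 3 with h3 | h3
    · have hsub : box n H ⊆ F ∪ B₁ := by
        intro a ha
        rw [Finset.mem_union]
        by_cases h1 : a ∈ B₁
        · exact Or.inr h1
        · left
          rw [hB₁, Finset.mem_filter, not_and] at h1
          have h2 := h1 ha
          push Not at h2
          obtain ⟨p, hp, -, hT⟩ := h2
          exact Finset.mem_filter.mpr ⟨ha, isFull_of hG hD hn ⟨p, hp, hT⟩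
            (fun h => absurd h (by omega)) (fun h => absurd h (by omega))⟩
      have h4 : ((box n H).card : ℝ) ≤ F.card + B₁.card := by
        exact_mod_cast (Finset.card_le_card hsub).trans (Finset.card_union_le _ _)
      rw [hcard] at h4
      nlinarith [mul_nonneg (h0₂ H) hN.le, mul_nonneg (h0₃ H) hN.le]
    · obtain ⟨r₂, r₃⟩ := hbb h3
      set B₂ := (box n H).filter fun a => ∀ (p : ℕ) [Fact p.Prime], q₂ ≤ p →
        ¬ HasType {n - 1, 1} (red p a) with hB₂
      set B₃ := (box n H).filter fun a => ∀ (p : ℕ) [Fact p.Prime], q₃ ≤ p →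
        ¬ HasType (2 ::ₘ Multiset.replicate (n - 2) 1) (red p a) with hB₃
      have e2 : b₂ H * (2 * H + 1) ^ n = B₂.card := by
        rw [r₂]
        exact div_mul_cancel₀ _ hN.ne'
      have e3 : b₃ H * (2 * H + 1) ^ n = B₃.card := by
        rw [r₃]
        exact div_mul_cancel₀ _ hN.ne'
      have hsub : box n H ⊆ F ∪ (B₁ ∪ (B₂ ∪ B₃)) := by
        intro a ha
        rw [Finset.mem_union, Finset.mem_union, Finset.mem_union]
        by_cases h1 : a ∈ B₁
        · exact Or.inr (Or.inl h1)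
        by_cases h2 : a ∈ B₂
        · exact Or.inr (Or.inr (Or.inl h2))
        by_cases h2' : a ∈ B₃
        · exact Or.inr (Or.inr (Or.inr h2'))
        left
        rw [hB₁, Finset.mem_filter, not_and] at h1
        rw [hB₂, Finset.mem_filter, not_and] at h2
        rw [hB₃, Finset.mem_filter, not_and] at h2'
        have k1 := h1 ha
        have k2 := h2 ha
        have k3 := h2' ha
        push Not at k1 k2 k3
        obtain ⟨p, hp, -, hT⟩ := k1
        obtain ⟨p', hp', -, hT'⟩ := k2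
        obtain ⟨p'', hp'', -, hT''⟩ := k3
        exact Finset.mem_filter.mpr ⟨ha, isFull_of hG hD hn ⟨p, hp, hT⟩
          (fun _ => ⟨p', hp', hT'⟩) (fun _ => ⟨p'', hp'', hT''⟩)⟩
      have h4 : ((box n H).card : ℝ) ≤ F.card + (B₁.card + (B₂.card + B₃.card)) := by
        have h5 := (Finset.card_le_card hsub).trans (Finset.card_union_le _ _)
        have h6 := Finset.card_union_le B₁ (B₂ ∪ B₃)
        have h7 := Finset.card_union_le B₂ B₃
        exact_mod_cast (show (box n H).card ≤ F.card + (B₁.card + (B₂.card + B₃.card)) by omega)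
      rw [hcard] at h4
      nlinarith
  · -- upper bound
    change (((box n H).filter fun a => IsFull a).card : ℝ) / (box n H).card ≤ 1
    refine div_le_one_of_le₀ ?_ (Nat.cast_nonneg _)
    exact_mod_cast Finset.card_le_card (Finset.filter_subset _ _)

end Fermat.Agent.Cor.Vdw
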