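import Fermat.Agent.Corollaries.Vdw.Disc

/-!
# Almost all polynomials: the field generated by a root
-/

set_option autoImplicit false

namespace Fermat.Agent.Cor.Vdw

open Polynomial Filter Topology Fermat.Agent.Frob Fermat.Agent.Cor.Frob IntermediateField
open scoped Nat

local notation "Qbar" => AlgebraicClosure ℚ

/-- the roots of a full polynomial are permuted arbitrarily by the Galois group of `ℚ̄` -/
theorem IsFull.exists_roots {n : ℕ} {a : Fin n → ℤ} (h : IsFull a) :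
    ∃ α : Fin n → Qbar, Function.Injective α ∧
      (∀ x : Qbar, aeval x ((pol a).map (Int.castRingHom ℚ)) = 0 ↔ ∃ i, α i = x) ∧
      ∀ τ : Equiv.Perm (Fin n), ∃ σ : GQ, ∀ i, σ (α i) = α (τ i) := by
  classical
  have hsep := h.1.separable
  set P := (pol a).map (Int.castRingHom ℚ) with hP
  have hm : P.Monic := (Ded.monic_pol a).map _
  have hdeg : P.natDegree = n := natDegree_map_pol a
  have hcard : Multiset.card (P.map (algebraMap ℚ Qbar)).roots = n := by
    rw [← (IsAlgClosed.splits (P.map (algebraMap ℚ Qbar))).natDegree_eq_card_roots, natDegree_map,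
      hdeg]
  obtain ⟨α, hroots⟩ := Ded.exists_fin_map _ hcard
  have hα : Function.Injective α := by
    have h1 : (P.map (algebraMap ℚ Qbar)).roots.Nodup := nodup_roots hsep.map
    rw [hroots] at h1
    intro x y hxy
    exact Multiset.inj_on_of_nodup_map h1 x (Finset.mem_univ x) y (Finset.mem_univ y) hxy
  refine ⟨α, hα, fun x => ?_, fun τ => ?_⟩
  · rw [aeval_def, eval₂_eq_eval_map, ← IsRoot.def, ← mem_roots (hm.map _).ne_zero, hroots,
      Multiset.mem_map]
    exact ⟨fun ⟨i, _, h⟩ => ⟨i, h⟩, fun ⟨i, h⟩ => ⟨i, Finset.mem_univ i, h⟩⟩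
  · have htop : (Ded.rho hm.ne_zero hα hroots).range = ⊤ := by
      refine Subgroup.eq_top_of_card_eq _ ?_
      rw [Ded.card_range_rho, h.2, Nat.card_perm, Nat.card_eq_fintype_card, Fintype.card_fin]
    obtain ⟨σ, hσ⟩ := MonoidHom.range_eq_top.mp htop τ
    exact ⟨σ, fun i => by
      rw [← hσ]
      exact (Ded.rho_apply hm.ne_zero hα hroots σ i).symm⟩

/-- an automorphism which fixes `x` fixes `ℚ(x)` -/
theorem fixes_adjoin {σ : GQ} {x : Qbar} (h : σ x = x) {y : Qbar} (hy : y ∈ ℚ⟮x⟯) : σ y = y := by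
  have h1 : ℚ⟮x⟯ ≤ IntermediateField.fixedField (Subgroup.zpowers σ) := by
    rw [IntermediateField.adjoin_simple_le_iff]
    intro g
    obtain ⟨k, hk⟩ := Subgroup.mem_zpowers_iff.mp g.2
    have h2 : ∀ k : ℤ, (σ ^ k) x = x := fun k => by
      have h3 : σ ∈ MulAction.stabilizer GQ x := h
      exact (MulAction.stabilizer GQ x).zpow_mem h3 k
    change (g : GQ) x = x
    rw [← hk]
    exact h2 k
  exact h1 hy ⟨σ, Subgroup.mem_zpowers σ⟩

/-- **The field generated by a root of a full polynomial has no proper subfields.** -/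
theorem IsFull.eq_bot_or {n : ℕ} {a : Fin n → ℤ} (h : IsFull a) {x : Qbar}
    (hx : aeval x ((pol a).map (Int.castRingHom ℚ)) = 0) {F : IntermediateField ℚ Qbar}
    (hF : F ≤ ℚ⟮x⟯) : F = ⊥ ∨ F = ℚ⟮x⟯ := by
  classical
  obtain ⟨α, hα, hroot, hperm⟩ := h.exists_roots
  obtain ⟨i₀, rfl⟩ := (hroot x).mp hx
  by_cases hxF : α i₀ ∈ F
  · right
    exact le_antisymm hF (IntermediateField.adjoin_simple_le_iff.mpr hxF)
  left
  -- an element of the group of `F` which moves the root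
  obtain ⟨σ, hσF, hσ⟩ : ∃ σ : GQ, σ ∈ F.fixingSubgroup ∧ σ (α i₀) ≠ α i₀ := by
    by_contra hcon
    push Not at hcon
    apply hxF
    rw [← InfiniteGalois.fixedField_fixingSubgroup F]
    exact fun g => hcon g g.2
  have hmem : ∀ g : GQ, g (α i₀) = α i₀ → g ∈ F.fixingSubgroup := by
    intro g hg
    rw [IntermediateField.mem_fixingSubgroup_iff]
    exact fun y hy => fixes_adjoin hg (hF hy)
  have hstep : ∀ g : GQ, ∃ j, g (α i₀) = α j := by
    intro g
    have h1 : aeval (g (α i₀)) ((pol a).map (Int.castRingHom ℚ)) = 0 := by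
      have h2 := aeval_algHom_apply (g : Qbar →ₐ[ℚ] Qbar) (α i₀)
        ((pol a).map (Int.castRingHom ℚ))
      rw [hx, map_zero] at h2
      exact h2
    obtain ⟨j, hj⟩ := (hroot _).mp h1
    exact ⟨j, hj.symm⟩
  obtain ⟨i₁, hi₁⟩ := hstep σ
  have h01 : i₁ ≠ i₀ := by
    rintro rfl
    exact hσ hi₁
  have hall : ∀ g : GQ, g ∈ F.fixingSubgroup := by
    intro g
    obtain ⟨j, hj⟩ := hstep g
    by_cases hj0 : j = i₀
    · exact hmem g (by rw [hj, hj0])
    · obtain ⟨τ, hτ⟩ := hperm (Equiv.swap i₁ j)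
      have hτ0 : τ (α i₀) = α i₀ := by
        rw [hτ, Equiv.swap_apply_of_ne_of_ne h01.symm (Ne.symm hj0)]
      have h3 : (τ * σ)⁻¹ * g ∈ F.fixingSubgroup := by
        apply hmem
        have h4 : (τ * σ) (α i₀) = α j := by
          change τ (σ (α i₀)) = α j
          rw [hi₁, hτ, Equiv.swap_apply_left]
        change (τ * σ)⁻¹ (g (α i₀)) = α i₀
        rw [hj, ← h4]
        exact AlgEquiv.symm_apply_apply (τ * σ) (α i₀)
      have h5 := mul_mem (mul_mem (hmem τ hτ0) hσF) h3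
      rwa [mul_inv_cancel_left] at h5
  rw [eq_bot_iff]
  intro y hy
  rw [InfiniteGalois.mem_bot_iff_fixed]
  exact fun g => (IntermediateField.mem_fixingSubgroup_iff F g).mp (hall g) y hy

/-- **The field generated by a root of a full polynomial of degree `n ≥ 3` contains no other
root.** -/
theorem IsFull.root_unique {n : ℕ} (hn : 3 ≤ n) {a : Fin n → ℤ} (h : IsFull a) {x y : Qbar}
    (hx : aeval x ((pol a).map (Int.castRingHom ℚ)) = 0)
    (hy : aeval y ((pol a).map (Int.castRingHom ℚ)) = 0) (hxy : y ∈ ℚ⟮x⟯) : y = x := by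
  classical
  obtain ⟨α, hα, hroot, hperm⟩ := h.exists_roots
  obtain ⟨i₀, rfl⟩ := (hroot x).mp hx
  obtain ⟨i₁, rfl⟩ := (hroot y).mp hy
  by_contra hne
  have h01 : i₁ ≠ i₀ := fun h => hne (by rw [h])
  obtain ⟨i₂, h2⟩ : ∃ i₂ : Fin n, i₂ ∉ ({i₀, i₁} : Finset (Fin n)) := by
    by_contra hcon
    push Not at hcon
    have h3 := Finset.card_le_card fun i (_ : i ∈ (Finset.univ : Finset (Fin n))) => hcon i
    rw [Finset.card_univ, Fintype.card_fin] at h3
    have h4 := Finset.card_le_two (a := i₀) (b := i₁)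
    omega
  rw [Finset.mem_insert, Finset.mem_singleton] at h2
  push Not at h2
  obtain ⟨τ, hτ⟩ := hperm (Equiv.swap i₁ i₂)
  have hτ0 : τ (α i₀) = α i₀ := by
    rw [hτ, Equiv.swap_apply_of_ne_of_ne h01.symm (Ne.symm h2.1)]
  have h5 := fixes_adjoin hτ0 hxy
  rw [hτ, Equiv.swap_apply_left] at h5
  exact h2.2 (hα h5)

/-- **Almost all monic integral polynomials of degree `n ≥ 3`**: the field generated by a root has
no proper subfields and contains no other root. -/
theorem tendsto_no_subfields (n : ℕ) (hn : 3 ≤ n) :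
    Tendsto (fun H : ℕ => (Nat.card {a : Fin n → ℤ // (∀ i, |a i| ≤ H) ∧
      ∀ x : Qbar, x ^ n + ∑ i : Fin n, (a i : Qbar) * x ^ (i : ℕ) = 0 →
        (∀ F : IntermediateField ℚ Qbar, F ≤ ℚ⟮x⟯ → F = ⊥ ∨ F = ℚ⟮x⟯) ∧
        ∀ y ∈ ℚ⟮x⟯, y ^ n + ∑ i : Fin n, (a i : Qbar) * y ^ (i : ℕ) = 0 → y = x} : ℝ) /
      (2 * H + 1) ^ n) atTop (𝓝 1) := by
  have key : ∀ (a : Fin n → ℤ) (x : Qbar), aeval x ((pol a).map (Int.castRingHom ℚ)) =
      x ^ n + ∑ i : Fin n, (a i : Qbar) * x ^ (i : ℕ) := by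
    intro a x
    rw [Ded.map_pol, pol, map_add, map_pow, aeval_X, map_sum]
    congr 1
    refine Finset.sum_congr rfl fun i _ => ?_
    rw [map_mul, aeval_C, map_pow, aeval_X]
    simp
  have h := tendsto_of_isFull vdw (by omega) (n := n) (Q := fun a =>
      ∀ x : Qbar, x ^ n + ∑ i : Fin n, (a i : Qbar) * x ^ (i : ℕ) = 0 →
        (∀ F : IntermediateField ℚ Qbar, F ≤ ℚ⟮x⟯ → F = ⊥ ∨ F = ℚ⟮x⟯) ∧
        ∀ y ∈ ℚ⟮x⟯, y ^ n + ∑ i : Fin n, (a i : Qbar) * y ^ (i : ℕ) = 0 → y = x)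
      fun a ha x hx => ⟨fun F hF => ha.eq_bot_or ((key a x).trans hx) hF,
        fun y hy hy0 => ha.root_unique hn ((key a x).trans hx) ((key a y).trans hy0) hy⟩
  refine h.congr fun H => ?_
  rw [card_box_filter]

end Fermat.Agent.Cor.Vdw
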