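import Mathlib

/-!
# The number of monic irreducible polynomials over a finite field

`k` a finite field with `q` elements, `N k n` the number of the monic irreducible polynomials of
degree `n` over `k`.

* `sum_mul_N` (Gauss): `∑_{d ∣ n} d N_d = q ^ n`;
* `mul_N` (Gauss): `n N_n = ∑_{d ∣ n} μ(d) q ^ (n / d)`;
* `N_pos`, `mul_N_le`, `lt_mul_N_add`: `N_n > 0`, `q ^ n - q ^ (n / 2 + 1) < n N_n ≤ q ^ n`;
* `tendsto_N`: the prime number theorem for polynomials, `n N_n / q ^ n → 1`.
-/

set_option autoImplicit false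

open Polynomial Finset UniqueFactorizationMonoid Filter Topology

namespace Fermat.Agent.Cor.PrimePoly

variable (k : Type*) [Field k]

/-- the number of the monic irreducible polynomials of degree `d` -/
noncomputable def N (d : ℕ) : ℕ :=
  Nat.card {f : k[X] // f.Monic ∧ Irreducible f ∧ f.natDegree = d}

variable [Finite k]

theorem separable_X_pow {n : ℕ} (hn : n ≠ 0) : (X ^ Nat.card k ^ n - X : k[X]).Separable := by
  obtain ⟨p, hp⟩ := CharP.exists k
  let _ : Fintype k := Fintype.ofFinite k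
  refine galois_poly_separable p _ (dvd_pow ?_ hn)
  rw [← CharP.cast_eq_zero_iff k p, Nat.card_eq_fintype_card, Nat.cast_card_eq_zero]

theorem natDegree_X_pow_sub {n : ℕ} (hn : n ≠ 0) :
    (X ^ Nat.card k ^ n - X : k[X]).natDegree = Nat.card k ^ n :=
  FiniteField.X_pow_card_pow_sub_X_natDegree_eq k hn Finite.one_lt_card

theorem monic_X_pow_sub_X {n : ℕ} (hn : n ≠ 0) : (X ^ Nat.card k ^ n - X : k[X]).Monic := by
  refine monic_X_pow_sub ?_
  rw [degree_X]
  exact_mod_cast Nat.one_lt_pow hn Finite.one_lt_card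

/-- **Gauss' formula**: `∑_{d ∣ n} d N_d = q ^ n` -/
theorem sum_mul_N {n : ℕ} (hn : n ≠ 0) :
    ∑ d ∈ n.divisors, d * N k d = Nat.card k ^ n := by
  classical
  set P : k[X] := X ^ Nat.card k ^ n - X with hP
  have hPm : P.Monic := monic_X_pow_sub_X k hn
  have hP0 : P ≠ 0 := hPm.ne_zero
  have hnd : (normalizedFactors P).Nodup :=
    (squarefree_iff_nodup_normalizedFactors hP0).mp (separable_X_pow k hn).squarefree
  set S : Finset k[X] := (normalizedFactors P).toFinset with hS
  have hmem : ∀ f : k[X], f ∈ S ↔ f.Monic ∧ Irreducible f ∧ f.natDegree ∣ n := by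
    intro f
    rw [hS, Multiset.mem_toFinset, Polynomial.mem_normalizedFactors_iff hP0]
    constructor
    · rintro ⟨h1, h2, h3⟩
      exact ⟨h2, h1, (h1.natDegree_dvd_iff_dvd_X_pow_card_pow_sub_X).mpr h3⟩
    · rintro ⟨h2, h1, h3⟩
      exact ⟨h1, h2, (h1.natDegree_dvd_iff_dvd_X_pow_card_pow_sub_X).mp h3⟩
  have h1 : ∑ f ∈ S, f.natDegree = Nat.card k ^ n := by
    have h2 : (normalizedFactors P).prod = P := by
      have h3 := Polynomial.leadingCoeff_mul_prod_normalizedFactors P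
      rwa [hPm.leadingCoeff, C_1, one_mul] at h3
    have h3 : ((normalizedFactors P).map natDegree).sum = P.natDegree := by
      conv_rhs => rw [← h2]
      refine (natDegree_multiset_prod_of_monic _ fun f hf => ?_).symm
      exact ((Polynomial.mem_normalizedFactors_iff hP0).mp hf).2.1
    rw [← natDegree_X_pow_sub k hn, ← hP, ← h3, hS, Finset.sum, Multiset.toFinset_val,
      hnd.dedup]
  rw [← h1, ← sum_fiberwise_of_maps_to (s := S) (t := n.divisors) (g := natDegree)
    (fun f hf => Nat.mem_divisors.mpr ⟨((hmem f).mp hf).2.2, hn⟩)]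
  refine sum_congr rfl fun d hd => ?_
  have h2 : ∑ f ∈ S.filter (fun f => f.natDegree = d), f.natDegree =
      ∑ _f ∈ S.filter (fun f => f.natDegree = d), d :=
    sum_congr rfl fun f hf => (mem_filter.mp hf).2
  rw [h2, sum_const, smul_eq_mul, mul_comm, N]
  congr 1
  refine Nat.subtype_card _ fun f => ?_
  rw [mem_filter, hmem]
  constructor
  · rintro ⟨⟨h3, h4, -⟩, h5⟩
    exact ⟨h3, h4, h5⟩
  · rintro ⟨h3, h4, h5⟩
    exact ⟨⟨h3, h4, h5 ▸ Nat.dvd_of_mem_divisors hd⟩, h5⟩

/-- **Gauss' formula**, inverted: `n N_n = ∑_{d ∣ n} μ(d) q ^ (n / d)` -/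
theorem mul_N {n : ℕ} (hn : 0 < n) : (n : ℤ) * N k n =
    ∑ x ∈ n.divisorsAntidiagonal, ArithmeticFunction.moebius x.1 * (Nat.card k : ℤ) ^ x.2 := by
  have h := (ArithmeticFunction.sum_eq_iff_sum_mul_moebius_eq (R := ℤ)
    (f := fun d => (d : ℤ) * N k d) (g := fun n => (Nat.card k : ℤ) ^ n)).mp
    (fun n hn => by exact_mod_cast sum_mul_N k hn.ne') n hn
  rw [← h]
  simp

theorem mul_N_le {n : ℕ} (hn : 0 < n) : n * N k n ≤ Nat.card k ^ n := by
  rw [← sum_mul_N k hn.ne']
  exact single_le_sum (f := fun d => d * N k d) (fun _ _ => Nat.zero_le _)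
    (Nat.mem_divisors_self n hn.ne')

theorem pow_le_add {n : ℕ} (hn : 0 < n) :
    Nat.card k ^ n ≤ n * N k n + ∑ d ∈ n.properDivisors, Nat.card k ^ d := by
  rw [← sum_mul_N k hn.ne', ← Nat.insert_self_properDivisors hn.ne',
    sum_insert (fun h => lt_irrefl n (Nat.mem_properDivisors.mp h).2)]
  refine Nat.add_le_add_left (sum_le_sum fun d hd => mul_N_le k ?_) _
  exact Nat.pos_of_dvd_of_pos (Nat.mem_properDivisors.mp hd).1 hn

/-- There are monic irreducible polynomials of all degrees. -/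
theorem N_pos {n : ℕ} (hn : 0 < n) : 0 < N k n := by
  have h1 := pow_le_add k hn
  have h2 : ∑ d ∈ n.properDivisors, Nat.card k ^ d < Nat.card k ^ n :=
    Nat.geomSum_lt Finite.one_lt_card fun d hd => (Nat.mem_properDivisors.mp hd).2
  rcases Nat.eq_zero_or_pos (N k n) with h | h
  · rw [h, mul_zero] at h1
    omega
  · exact h

/-- `q ^ n < n N_n + q ^ (n / 2 + 1)` -/
theorem lt_mul_N_add {n : ℕ} (hn : 0 < n) :
    Nat.card k ^ n < n * N k n + Nat.card k ^ (n / 2 + 1) := by
  have h1 := pow_le_add k hn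
  have h2 : ∑ d ∈ n.properDivisors, Nat.card k ^ d < Nat.card k ^ (n / 2 + 1) := by
    refine Nat.geomSum_lt Finite.one_lt_card fun d hd => ?_
    obtain ⟨⟨c, hc⟩, hlt⟩ := Nat.mem_properDivisors.mp hd
    have hc2 : 2 ≤ c := by
      rcases Nat.lt_or_ge c 2 with h | h
      · interval_cases c <;> omega
      · exact h
    have h3 : d * 2 ≤ n := by
      rw [hc]
      exact Nat.mul_le_mul_left d hc2
    omega
  omega

/-- **The prime number theorem for polynomials**: `n N_n / q ^ n → 1`. -/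
theorem tendsto_N : Tendsto (fun n : ℕ => (n * N k n : ℝ) / (Nat.card k : ℝ) ^ n) atTop
    (𝓝 1) := by
  have hq : 1 < Nat.card k := Finite.one_lt_card
  have hq1 : (1 : ℝ) < Nat.card k := by exact_mod_cast hq
  have hq0 : (0 : ℝ) < Nat.card k := by linarith
  have h2 : Tendsto (fun n : ℕ => n / 2) atTop atTop :=
    tendsto_atTop.mpr fun b => (eventually_ge_atTop (2 * b)).mono fun n hn => by omega
  have h3 : Tendsto (fun n : ℕ => 1 - (Nat.card k : ℝ) * ((Nat.card k : ℝ)⁻¹) ^ (n / 2)) atTop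
      (𝓝 (1 - (Nat.card k : ℝ) * 0)) :=
    tendsto_const_nhds.sub (((tendsto_pow_atTop_nhds_zero_of_lt_one (by positivity)
      (inv_lt_one_of_one_lt₀ hq1)).comp h2).const_mul _)
  rw [mul_zero, sub_zero] at h3
  refine tendsto_of_tendsto_of_tendsto_of_le_of_le' h3 tendsto_const_nhds ?_ ?_
  · filter_upwards [eventually_gt_atTop 0] with n hn
    have h4 : (Nat.card k : ℝ) ^ n < n * N k n + (Nat.card k : ℝ) ^ (n / 2 + 1) := by
      exact_mod_cast lt_mul_N_add k hn
    have h5 : (0 : ℝ) < (Nat.card k : ℝ) ^ n := by positivity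
    rw [le_div_iff₀ h5, sub_mul, one_mul]
    have h6 : (Nat.card k : ℝ) ^ (n / 2 + 1) ≤
        (Nat.card k : ℝ) * ((Nat.card k : ℝ)⁻¹) ^ (n / 2) * (Nat.card k : ℝ) ^ n := by
      have h7 : (Nat.card k : ℝ) ^ (n / 2 + n / 2) ≤ (Nat.card k : ℝ) ^ n :=
        pow_le_pow_right₀ hq1.le (by omega)
      have h8 : (0 : ℝ) < (Nat.card k : ℝ) ^ (n / 2) := by positivity
      rw [inv_pow, mul_assoc, pow_succ, mul_comm ((Nat.card k : ℝ) ^ (n / 2))]
      refine mul_le_mul_of_nonneg_left ?_ hq0.le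
      rw [inv_mul_eq_div, le_div_iff₀ h8, ← pow_add]
      exact h7
    linarith
  · filter_upwards [eventually_gt_atTop 0] with n hn
    have h4 : (n * N k n : ℝ) ≤ (Nat.card k : ℝ) ^ n := by exact_mod_cast mul_N_le k hn
    exact div_le_one_of_le₀ h4 (by positivity)

end Fermat.Agent.Cor.PrimePoly
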