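import Fermat.Agent.Corollaries.Vdw.Dens

/-!
# Almost all polynomials modulo the primes
-/

set_option autoImplicit false

namespace Fermat.Agent.Cor.Vdw

open Polynomial Filter Topology Fermat.Agent.Frob Fermat.Agent.Cor.Frob
open scoped Nat

section Field

variable {k : Type*} [Field k] {n : ℕ} {b : Fin n → k}

/-- roots and factors of degree one -/
theorem HasType.one_mem_iff {m : Multiset ℕ} (h : HasType m b) :
    1 ∈ m ↔ ∃ x, (pol b).eval x = 0 := by
  obtain ⟨-, rfl⟩ := h
  have h0 : pol b ≠ 0 := (Ded.monic_pol b).ne_zero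
  rw [Multiset.mem_map]
  constructor
  · rintro ⟨q, hq, hdeg⟩
    have hdvd := UniqueFactorizationMonoid.dvd_of_mem_factors hq
    have hq0 : q ≠ 0 := fun h => h0 (zero_dvd_iff.mp (h ▸ hdvd))
    obtain ⟨x, hx⟩ := exists_root_of_degree_eq_one (p := q)
      (by rw [degree_eq_natDegree hq0, hdeg]; rfl)
    exact ⟨x, hx.dvd hdvd⟩
  · rintro ⟨x, hx⟩
    obtain ⟨q, hq, hass⟩ := UniqueFactorizationMonoid.exists_mem_factors_of_dvd h0
      (irreducible_X_sub_C x) (dvd_iff_isRoot.mpr hx)
    exact ⟨q, hq, by
      rw [← natDegree_eq_of_degree_eq (degree_eq_degree_of_associated hass), natDegree_X_sub_C]⟩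

/-- irreducible polynomials have only one factor -/
theorem HasType.eq_singleton_iff {m : Multiset ℕ} (h : HasType m b) :
    m = {n} ↔ Irreducible (pol b) := by
  obtain ⟨-, rfl⟩ := h
  have h0 : pol b ≠ 0 := (Ded.monic_pol b).ne_zero
  constructor
  · intro h
    obtain ⟨q, hq, -⟩ := Multiset.map_eq_singleton.mp h
    have h1 := UniqueFactorizationMonoid.factors_prod h0
    rw [hq, Multiset.prod_singleton] at h1
    exact h1.irreducible (UniqueFactorizationMonoid.irreducible_of_factor q
      (by rw [hq]; exact Multiset.mem_singleton_self q))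
  · intro h
    obtain ⟨q, hass, hq⟩ := UniqueFactorizationMonoid.factors_eq_singleton_of_irreducible h
    rw [hq, Multiset.map_singleton,
      ← natDegree_eq_of_degree_eq (degree_eq_degree_of_associated hass), Ded.natDegree_pol]

theorem eval_pol (x : k) : (pol b).eval x = x ^ n + ∑ i : Fin n, b i * x ^ (i : ℕ) := by
  rw [pol, eval_add, eval_pow, eval_X, eval_finsetSum]
  congr 1
  refine Finset.sum_congr rfl fun i _ => ?_
  rw [eval_mul, eval_C, eval_pow, eval_X]

end Field

/-- the number of `n`-cycles -/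
theorem card_parts_singleton {n : ℕ} (hn : 0 < n) :
    Nat.card {g : Equiv.Perm (Fin n) // g.partition.parts = {n}} = (n - 1)! := by
  classical
  rcases Nat.lt_or_ge n 2 with h2 | h2
  · obtain rfl : n = 1 := by omega
    have h1 : ∀ g : Equiv.Perm (Fin 1), g.partition.parts = {1} := by
      intro g
      rw [Subsingleton.elim g 1, Equiv.Perm.parts_partition]
      simp
    rw [Nat.card_congr (Equiv.subtypeUnivEquiv h1), Nat.card_perm]
    simp
  · have h1 : ∀ g : Equiv.Perm (Fin n), g.partition.parts = {n} ↔ g.cycleType = {n} := by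
      intro g
      refine ⟨Group.cycleType_eq h2, fun h => ?_⟩
      have h3 := g.sum_cycleType
      rw [h, Multiset.sum_singleton] at h3
      rw [Equiv.Perm.parts_partition, h, ← h3, Fintype.card_fin, Nat.sub_self,
        Multiset.replicate_zero, add_zero]
    rw [Nat.card_congr (Equiv.subtypeEquivRight h1), Nat.card_eq_fintype_card,
      Fintype.card_subtype, Equiv.Perm.card_of_cycleType, if_pos]
    · rw [Fintype.card_fin, Multiset.sum_singleton, Nat.sub_self, Nat.factorial_zero, one_mul,
        Multiset.prod_singleton, Multiset.toFinset_singleton, Finset.prod_singleton,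
        Multiset.count_singleton_self, Nat.factorial_one, mul_one]
      obtain ⟨k, rfl⟩ := Nat.exists_eq_succ_of_ne_zero hn.ne'
      rw [Nat.factorial_succ, Nat.mul_div_cancel_left _ (Nat.succ_pos k), Nat.succ_sub_one]
    · rw [Multiset.sum_singleton, Fintype.card_fin]
      exact ⟨le_rfl, fun a ha => (Multiset.mem_singleton.mp ha) ▸ h2⟩

/-- permutations without fixed points -/
theorem card_one_notMem (n : ℕ) :
    Nat.card {g : Equiv.Perm (Fin n) // 1 ∉ g.partition.parts} = numDerangements n := by
  classical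
  have h1 : ∀ g : Equiv.Perm (Fin n), 1 ∉ g.partition.parts ↔ g ∈ derangements (Fin n) := by
    intro g
    rw [Equiv.Perm.parts_partition, Multiset.mem_add, Multiset.mem_replicate]
    have h2 : 1 ∉ g.cycleType := fun h => absurd (Equiv.Perm.two_le_of_mem_cycleType h) (by omega)
    change _ ↔ ∀ x, g x ≠ x
    constructor
    · intro h x hx
      apply h
      refine Or.inr ⟨?_, rfl⟩
      have h3 : g.support.card < Fintype.card (Fin n) := by
        rw [Finset.card_lt_iff_ne_univ]
        intro h4
        exact Equiv.Perm.mem_support.mp (h4 ▸ Finset.mem_univ x) hx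
      omega
    · intro h h3
      rcases h3 with h3 | ⟨h3, -⟩
      · exact h2 h3
      · apply h3
        have h4 : g.support = Finset.univ :=
          Finset.eq_univ_of_forall fun x => Equiv.Perm.mem_support.mpr (h x)
        rw [h4, Finset.card_univ, Nat.sub_self]
  rw [Nat.card_congr (Equiv.subtypeEquivRight h1), Nat.card_eq_fintype_card]
  exact (card_derangements_eq_numDerangements (Fin n)).trans (by rw [Fintype.card_fin])

/-- **A full polynomial is irreducible modulo `p` for `1 / n` of the primes.** -/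
theorem IsFull.density_irreducible {n : ℕ} (hn : 0 < n) {a : Fin n → ℤ} (h : IsFull a) :
    HasDensity (fun p => Irreducible
      (X ^ n + ∑ i : Fin n, C (a i : ZMod p) * X ^ (i : ℕ) : (ZMod p)[X])) (1 / n) := by
  have h1 := h.hasDensity fun m => m = {n}
  rw [card_parts_singleton hn] at h1
  have h2 : ((n - 1)! : ℝ) / n ! = 1 / n := by
    obtain ⟨k, rfl⟩ := Nat.exists_eq_succ_of_ne_zero hn.ne'
    have h3 : ((k ! : ℕ) : ℝ) ≠ 0 := by exact_mod_cast (Nat.factorial_pos k).ne'
    have h4 : ((k.succ : ℕ) : ℝ) ≠ 0 := by exact_mod_cast Nat.succ_ne_zero k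
    rw [Nat.succ_sub_one, Nat.factorial_succ, Nat.cast_mul, div_eq_div_iff
      (mul_ne_zero h4 h3) h4]
    ring
  rw [h2] at h1
  obtain ⟨D, hD, hs⟩ := exists_bad h.1.separable
  refine h1.congr hD fun p hp hpD => ?_
  have hfp : Fact p.Prime := ⟨hp⟩
  have h3 : HasType _ (red p a) := ⟨hs p hpD, rfl⟩
  constructor
  · rintro ⟨_, m, hm, hq⟩
    exact hm.eq_singleton_iff.mp hq
  · intro hi
    exact ⟨hfp, _, h3, h3.eq_singleton_iff.mpr hi⟩

/-- **A full polynomial has no root modulo `p` for `D_n / n!` of the primes**, `D_n` the number of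
derangements. -/
theorem IsFull.density_no_root {n : ℕ} {a : Fin n → ℤ} (h : IsFull a) :
    HasDensity (fun p => ∀ x : ZMod p, x ^ n + ∑ i : Fin n, (a i : ZMod p) * x ^ (i : ℕ) ≠ 0)
      (numDerangements n / n !) := by
  have h1 := h.hasDensity fun m => 1 ∉ m
  rw [card_one_notMem] at h1
  obtain ⟨D, hD, hs⟩ := exists_bad h.1.separable
  refine h1.congr hD fun p hp hpD => ?_
  have hfp : Fact p.Prime := ⟨hp⟩
  have h3 : HasType _ (red p a) := ⟨hs p hpD, rfl⟩
  constructor
  · rintro ⟨_, m, hm, hq⟩ x hx
    exact hq (hm.one_mem_iff.mpr ⟨x, (eval_pol x).trans hx⟩)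
  · intro hi
    refine ⟨hfp, _, h3, fun h4 => ?_⟩
    obtain ⟨x, hx⟩ := h3.one_mem_iff.mp h4
    exact hi x ((eval_pol x).symm.trans hx)

/-- **Almost all monic integral polynomials of degree `n`** are irreducible modulo `p` for `1 / n`
of the primes `p` and have no root modulo `p` for `D_n / n!` of the primes `p`. -/
theorem tendsto_density (n : ℕ) (hn : 0 < n) :
    Tendsto (fun H : ℕ => (Nat.card {a : Fin n → ℤ // (∀ i, |a i| ≤ H) ∧
      HasDensity (fun p => Irreducible
        (X ^ n + ∑ i : Fin n, C (a i : ZMod p) * X ^ (i : ℕ) : (ZMod p)[X])) (1 / n) ∧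
      HasDensity (fun p => ∀ x : ZMod p, x ^ n + ∑ i : Fin n, (a i : ZMod p) * x ^ (i : ℕ) ≠ 0)
        (numDerangements n / n !)} : ℝ) / (2 * H + 1) ^ n) atTop (𝓝 1) := by
  have h := tendsto_of_isFull vdw hn (Q := fun a =>
      HasDensity (fun p => Irreducible
        (X ^ n + ∑ i : Fin n, C (a i : ZMod p) * X ^ (i : ℕ) : (ZMod p)[X])) (1 / n) ∧
      HasDensity (fun p => ∀ x : ZMod p, x ^ n + ∑ i : Fin n, (a i : ZMod p) * x ^ (i : ℕ) ≠ 0)
        (numDerangements n / n !)) fun a ha => ⟨ha.density_irreducible hn, ha.density_no_root⟩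
  refine h.congr fun H => ?_
  rw [card_box_filter]

/-- **Almost all monic integral polynomials of degree `n`**: for every multiset `m` the primes
modulo which the polynomial is separable with irreducible factors of the degrees `m` have the
density `#{g ∈ S_n : the cycle type of g is m} / n!`. -/
theorem tendsto_density_hasType (n : ℕ) (hn : 0 < n) :
    Tendsto (fun H : ℕ => (Nat.card {a : Fin n → ℤ // (∀ i, |a i| ≤ H) ∧
      ∀ m : Multiset ℕ, HasDensity (fun p => ∃ _ : Fact p.Prime, HasType m (red p a))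
        (Nat.card {g : Equiv.Perm (Fin n) // g.partition.parts = m} / n !)} : ℝ) /
      (2 * H + 1) ^ n) atTop (𝓝 1) := by
  have h := tendsto_of_isFull vdw hn (Q := fun a =>
      ∀ m : Multiset ℕ, HasDensity (fun p => ∃ _ : Fact p.Prime, HasType m (red p a))
        (Nat.card {g : Equiv.Perm (Fin n) // g.partition.parts = m} / n !)) fun a ha m => by
    refine (ha.hasDensity fun m' => m' = m).congr one_ne_zero fun p _ _ => ?_
    constructor
    · rintro ⟨hp, m', h, rfl⟩
      exact ⟨hp, h⟩
    · rintro ⟨hp, h⟩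
      exact ⟨hp, m, h, rfl⟩
  refine h.congr fun H => ?_
  rw [card_box_filter]

end Fermat.Agent.Cor.Vdw
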